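import Fermat.Agent.S55.Fc.Basic

/-!
# S55 L-C0-10 (BaseRing): level cohomology only depends on the additive `G`-module

`ρ : Representation k G M`, `ρ' : Representation k' G M'`, `e : M ≃+ M'` equivariant.
Then `H^i L ρ ≃+ H^i L ρ'`.  (Used for `k = ℤ`, `k' = ZMod p`, `μ_p ≃ ZMod p`.)

PROOF.  `x ↦ e ∘ x` maps `Z^i` to `Z^i` and `B^i` to `B^i` (`mem_Z2_iff`, `mem_B2_iff`,
`IsLev₂.comp`), same for `e.symm`; `QuotientAddGroup.congr` (a `Submodule` quotient is the quotient
by `toAddSubgroup`) or build the two maps with `QuotientAddGroup.map` / `Submodule.Quotient`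
induction by hand.
-/

set_option autoImplicit false

namespace Fermat.Agent.S55.L.C0

/-- abstract form: an additive equivalence of the ambient cochain groups matching cocycles and
coboundaries induces an additive equivalence of the subquotients. -/
theorem BaseRing_exists_addEquiv {k k' : Type*} [CommRing k] [CommRing k']
    {X X' : Type*} [AddCommGroup X] [Module k X] [AddCommGroup X'] [Module k' X']
    (Z B : Submodule k X) (Z' B' : Submodule k' X') (φ : X ≃+ X')
    (hZ : ∀ x, x ∈ Z ↔ φ x ∈ Z') (hB : ∀ x, x ∈ B ↔ φ x ∈ B') :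
    ∃ E : (↥Z ⧸ B.comap Z.subtype) ≃+ (↥Z' ⧸ B'.comap Z'.subtype),
      ∀ (x : ↥Z) (x' : ↥Z'), (x' : X') = φ (x : X) →
        E (Submodule.mkQ _ x) = Submodule.mkQ _ x' := by
  let ψ : ↥Z ≃+ ↥Z' :=
    { toFun := fun x => ⟨φ x, (hZ x).1 x.2⟩
      invFun := fun x' => ⟨φ.symm x', (hZ _).2 (by rw [φ.apply_symm_apply]; exact x'.2)⟩
      left_inv := fun x => Subtype.ext (φ.symm_apply_apply _)
      right_inv := fun x' => Subtype.ext (φ.apply_symm_apply _)
      map_add' := fun x y => Subtype.ext (map_add φ _ _) }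
  have hmap : ((B.comap Z.subtype).toAddSubgroup).map (ψ : ↥Z →+ ↥Z') =
      (B'.comap Z'.subtype).toAddSubgroup := by
    ext x'
    constructor
    · rintro ⟨x, hx, rfl⟩
      exact (hB _).1 hx
    · intro hx'
      refine ⟨ψ.symm x', ?_, ψ.apply_symm_apply x'⟩
      refine (hB _).2 ?_
      have : φ ((ψ.symm x' : ↥Z) : X) = (x' : X') := φ.apply_symm_apply _
      change φ ((ψ.symm x' : ↥Z) : X) ∈ B'
      rw [this]
      exact hx'
  refine ⟨QuotientAddGroup.congr _ _ ψ hmap, fun x x' h => ?_⟩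
  have : x' = ψ x := Subtype.ext h
  rw [this]
  rfl

variable {k k' : Type*} [CommRing k] [CommRing k'] {G : Type} [Group G] (L : Lev G)
variable {M M' : Type*} [AddCommGroup M] [Module k M] [AddCommGroup M'] [Module k' M']
variable (ρ : Representation k G M) (ρ' : Representation k' G M')

theorem exists_H1_addEquiv (e : M ≃+ M') (he : ∀ g m, e (ρ g m) = ρ' g (e m)) :
    ∃ E : H1 L ρ ≃+ H1 L ρ', ∀ (x : ↥(Z1 L ρ)) (x' : ↥(Z1 L ρ')),
      (∀ g, (x' : G → M') g = e ((x : G → M) g)) → E (H1π L ρ x) = H1π L ρ' x' := by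
  suffices H : (∀ x : G → M, x ∈ Z1 L ρ ↔ (AddEquiv.piCongrRight fun _ : G => e) x ∈ Z1 L ρ') ∧
      (∀ x : G → M, x ∈ B1 ρ ↔ (AddEquiv.piCongrRight fun _ : G => e) x ∈ B1 ρ') by
    obtain ⟨E, hE⟩ := BaseRing_exists_addEquiv (Z1 L ρ) (B1 ρ) (Z1 L ρ') (B1 ρ')
      (AddEquiv.piCongrRight fun _ : G => e) H.1 H.2
    exact ⟨E, fun x x' h => hE x x' (funext h)⟩
  refine ⟨fun x => ?_, fun x => ?_⟩
  · rw [mem_Z1_iff, mem_Z1_iff]
    constructor
    · rintro ⟨h1, h2⟩
      refine ⟨h1.comp e, fun g h => ?_⟩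
      simp only [AddEquiv.piCongrRight_apply, h2 g h, map_add, he]
    · rintro ⟨h1, h2⟩
      refine ⟨?_, fun g h => ?_⟩
      · have := h1.comp e.symm
        convert this using 1
        ext g
        simp
      · apply e.injective
        have := h2 g h
        simp only [AddEquiv.piCongrRight_apply] at this
        rw [this, map_add, he]
  · rw [mem_B1_iff, mem_B1_iff]
    constructor
    · rintro ⟨m, hm⟩
      exact ⟨e m, fun g => by
        simp only [AddEquiv.piCongrRight_apply, hm g, map_sub, he]⟩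
    · rintro ⟨m', hm'⟩
      refine ⟨e.symm m', fun g => ?_⟩
      apply e.injective
      have := hm' g
      simp only [AddEquiv.piCongrRight_apply] at this
      rw [this, map_sub, he, e.apply_symm_apply]

theorem exists_H2_addEquiv (e : M ≃+ M') (he : ∀ g m, e (ρ g m) = ρ' g (e m)) :
    ∃ E : H2 L ρ ≃+ H2 L ρ', ∀ (x : ↥(Z2 L ρ)) (x' : ↥(Z2 L ρ')),
      (∀ p, (x' : G × G → M') p = e ((x : G × G → M) p)) → E (H2π L ρ x) = H2π L ρ' x' := by
  suffices H : (∀ x : G × G → M,
        x ∈ Z2 L ρ ↔ (AddEquiv.piCongrRight fun _ : G × G => e) x ∈ Z2 L ρ') ∧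
      (∀ x : G × G → M,
        x ∈ B2 L ρ ↔ (AddEquiv.piCongrRight fun _ : G × G => e) x ∈ B2 L ρ') by
    obtain ⟨E, hE⟩ := BaseRing_exists_addEquiv (Z2 L ρ) (B2 L ρ) (Z2 L ρ') (B2 L ρ')
      (AddEquiv.piCongrRight fun _ : G × G => e) H.1 H.2
    exact ⟨E, fun x x' h => hE x x' (funext h)⟩
  refine ⟨fun x => ?_, fun x => ?_⟩
  · rw [mem_Z2_iff, mem_Z2_iff]
    constructor
    · rintro ⟨h1, h2⟩
      refine ⟨h1.comp e, fun g h j => ?_⟩
      simp only [AddEquiv.piCongrRight_apply, ← map_add, h2 g h j, ← he]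
    · rintro ⟨h1, h2⟩
      refine ⟨?_, fun g h j => ?_⟩
      · have := h1.comp e.symm
        convert this using 1
        ext g
        simp
      · apply e.injective
        have := h2 g h j
        simp only [AddEquiv.piCongrRight_apply] at this
        rw [map_add, this, map_add, he]
  · rw [mem_B2_iff, mem_B2_iff]
    constructor
    · rintro ⟨y, hy, h⟩
      exact ⟨e ∘ y, hy.comp e, fun g g' => by
        simp only [AddEquiv.piCongrRight_apply, h g g', map_sub, map_add, he,
          Function.comp_apply]⟩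
    · rintro ⟨y', hy', h⟩
      refine ⟨e.symm ∘ y', hy'.comp e.symm, fun g g' => ?_⟩
      apply e.injective
      have := h g g'
      simp only [AddEquiv.piCongrRight_apply] at this
      simp only [this, map_sub, map_add, he, Function.comp_apply, e.apply_symm_apply]

/-- a vector space over `ZMod p` with `p ^ d` elements has dimension `d` -/
theorem finrank_eq_of_card {p : ℕ} [Fact p.Prime] {W : Type*} [AddCommGroup W]
    [Module (ZMod p) W] {d : ℕ} (h : Nat.card W = p ^ d) : Module.finrank (ZMod p) W = d := by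
  have hp : 1 < p := (Fact.out : p.Prime).one_lt
  have hfin : Finite W := Nat.finite_of_card_ne_zero (by rw [h]; positivity)
  have h2 := Module.natCard_eq_pow_finrank (K := ZMod p) (V := W)
  rw [h, Nat.card_zmod] at h2
  exact (Nat.pow_right_injective hp h2).symm

end Fermat.Agent.S55.L.C0
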