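import Fermat.Agent.S55.L.C0.Right

/-!
# S55 L-C0-4 (InfRes): third normalisation = inflation-restriction in degree 2

`V ⊲ G` open, `H¹(V, A) = 0`, `x` a level 2-cocycle which splits on `V`.  Then `x` is cohomologous
to a cocycle `x'` which vanishes on `G × V` and on `V × G`; such a cocycle is inflated from `G ⧸ V`
with values in `A^V`.

PROOF.  By `exists_rep_right` assume `x (1, g) = 0`, `x (g, v) = 0`, so `x (g, h v) = x (g, h)`.
For fixed `g` put `φ_g v := x (v, g)` (as a function on `G`: `fun v => x (v, g)`, level by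
`IsLev₂.left`).  The cocycle identity for `(v, w, g)` and `w g = g (g⁻¹ w g)` give
`φ_g (v w) = ρ v (φ_g w) + φ_g v` for `v, w ∈ V`.  By `H1VanishOn` there is `m_g` with
`x (v, g) = ρ v m_g - m_g` for all `v ∈ V`.  `φ_g` only depends on `g V`; choose `m` on `G ⧸ V`:
`z g := if g ∈ V then 0 else m_{(g : G ⧸ V).out}`.  Then `z (g v) = z g`, `z (v g) = z g`
(normality), `z v = 0`, `x (v, g) = ρ v (z g) - z g` for all `g` (for `g ∈ V` both sides vanish).
`z` is level (`isLev₁_of_isOpen hV`).  `x' := x - d1 z`: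
`(d1 z) (v, g) = ρ v (z g) - z (v g) + z v = x (v, g)`, `(d1 z) (g, v) = ρ g 0 - z g + z g = 0`.
-/

set_option autoImplicit false

namespace Fermat.Agent.S55.L.C0

variable {k : Type*} [CommRing k] {G : Type} [Group G] {L : Lev G}
variable {A : Type*} [AddCommGroup A] [Module k A] {ρ : Representation k G A}

/-- cocycle identities for `(g, h, w)`, `(g, v, h)` and normality. -/
theorem inflated_invariant {V : Subgroup G} [V.Normal] (x : ↥(Z2 L ρ))
    (h1 : ∀ g, ∀ v ∈ V, (x : G × G → A) (g, v) = 0)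
    (h2 : ∀ g, ∀ v ∈ V, (x : G × G → A) (v, g) = 0) (g h : G) {v w : G} (hv : v ∈ V)
    (hw : w ∈ V) : (x : G × G → A) (g * v, h * w) = (x : G × G → A) (g, h) := by
  rw [right_invariant_of_vanish x h1 (g * v) h hw]
  have hc := Z2.cocycle x g v h
  rw [h1 g v hv, h2 h v hv, map_zero, add_zero, zero_add] at hc
  rw [hc]
  have hn : h⁻¹ * v * h ∈ V := by
    have := (inferInstance : V.Normal).conj_mem v hv h⁻¹
    simpa using this
  have he : v * h = h * (h⁻¹ * v * h) := by group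
  rw [he]
  exact right_invariant_of_vanish x h1 g h hn

/-- cocycle identity for `(v, g, h)`: `x (v g, h) = ρ v (x (g, h))`, and `v g = g (g⁻¹ v g)`. -/
theorem inflated_fixed {V : Subgroup G} [V.Normal] (x : ↥(Z2 L ρ))
    (h1 : ∀ g, ∀ v ∈ V, (x : G × G → A) (g, v) = 0)
    (h2 : ∀ g, ∀ v ∈ V, (x : G × G → A) (v, g) = 0) (g h : G) {v : G} (hv : v ∈ V) :
    ρ v ((x : G × G → A) (g, h)) = (x : G × G → A) (g, h) := by
  have hc := Z2.cocycle x v g h
  rw [h2 g v hv, h2 (g * h) v hv, add_zero, add_zero] at hc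
  rw [← hc]
  have hn : g⁻¹ * v * g ∈ V := by
    have := (inferInstance : V.Normal).conj_mem v hv g⁻¹
    simpa using this
  have he : v * g = g * (g⁻¹ * v * g) := by group
  have := inflated_invariant x h1 h2 g h hn V.one_mem
  rw [mul_one] at this
  rw [he, this]

theorem exists_rep_inflated (hρ : IsDiscrete L ρ) {V : Subgroup G} [V.Normal] (hV : L.IsOpen V)
    (hH1 : H1VanishOn L ρ V) (x : ↥(Z2 L ρ)) (hx : SplitOn L ρ V (x : G × G → A)) :
    ∃ x' : ↥(Z2 L ρ), H2π L ρ x' = H2π L ρ x ∧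
      (∀ g, ∀ v ∈ V, (x' : G × G → A) (g, v) = 0) ∧
      ∀ g, ∀ v ∈ V, (x' : G × G → A) (v, g) = 0 := by
  classical
  obtain ⟨x1, hx1, -, hr⟩ := exists_rep_right hρ hV x hx
  have hconj : ∀ (g : G), ∀ w ∈ V, g⁻¹ * w * g ∈ V := by
    intro g w hw
    have := (inferInstance : V.Normal).conj_mem w hw g⁻¹
    simpa using this
  have hri : ∀ (g h : G), ∀ u ∈ V, (x1 : G × G → A) (g, h * u) = (x1 : G × G → A) (g, h) :=
    fun g h u hu => right_invariant_of_vanish x1 hr g h hu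
  -- for every `g` the function `v ↦ x1 (v, g)` is a coboundary on `V`
  have hex : ∀ g : G, ∃ m : A, ∀ v ∈ V, (x1 : G × G → A) (v, g) = ρ v m - m := by
    intro g
    refine hH1 (fun v => (x1 : G × G → A) (v, g)) ((Z2.isLev x1).left g) ?_
    intro v _ w hw
    have hc := Z2.cocycle x1 v w g
    rw [hr v w hw, add_zero] at hc
    have he : w * g = g * (g⁻¹ * w * g) := by group
    rw [he, hri v g _ (hconj g w hw)] at hc
    exact hc
  choose m hm using hex
  set z : G → A := fun g => if g ∈ V then 0 else m ((g : G ⧸ V).out) with hz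
  have hzr : ∀ (g : G), ∀ v ∈ V, z (g * v) = z g := by
    intro g v hv
    have h1 : g * v ∈ V ↔ g ∈ V := V.mul_mem_cancel_right hv
    have h2 : ((g * v : G) : G ⧸ V) = (g : G ⧸ V) := by
      rw [QuotientGroup.eq]
      have : (g * v)⁻¹ * g = v⁻¹ := by group
      rw [this]
      exact V.inv_mem hv
    simp only [hz, h1, h2]
  have hzl : ∀ (g : G), ∀ v ∈ V, z (v * g) = z g := by
    intro g v hv
    have he : v * g = g * (g⁻¹ * v * g) := by group
    rw [he]
    exact hzr g _ (hconj g v hv)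
  have hzV : ∀ v ∈ V, z v = 0 := by
    intro v hv
    simp only [hz, if_pos hv]
  have hzx : ∀ (g : G), ∀ v ∈ V, (x1 : G × G → A) (v, g) = ρ v (z g) - z g := by
    intro g v hv
    by_cases hg : g ∈ V
    · rw [hr v g hg, hzV g hg, map_zero, sub_zero]
    · have h1 : z g = m ((g : G ⧸ V).out) := by simp only [hz, if_neg hg]
      obtain ⟨w, hw⟩ := QuotientGroup.mk_out_eq_mul V g
      rw [h1, ← hm _ v hv, hw]
      exact (hri v g w w.2).symm
  have hzlev : IsLev₁ L z := isLev₁_of_isOpen hV hzr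
  have hd1 : d1 ρ z ∈ Z2 L ρ := B2_le_Z2 hρ ⟨z, hzlev, rfl⟩
  refine ⟨x1 - ⟨d1 ρ z, hd1⟩, ?_, ?_, ?_⟩
  · rw [← hx1, H2π_eq_iff]
    refine ⟨fun g => - z g, hzlev.comp (fun a => -a), ?_⟩
    intro g h
    have h1 : ((x1 - ⟨d1 ρ z, hd1⟩ : ↥(Z2 L ρ)) : G × G → A) (g, h)
        = (x1 : G × G → A) (g, h) - (ρ g (z h) - z (g * h) + z g) := rfl
    beta_reduce
    rw [h1, map_neg, sub_neg_eq_add]
    abel
  · intro g v hv
    have h1 : ((x1 - ⟨d1 ρ z, hd1⟩ : ↥(Z2 L ρ)) : G × G → A) (g, v)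
        = (x1 : G × G → A) (g, v) - (ρ g (z v) - z (g * v) + z g) := rfl
    rw [h1, hr g v hv, hzV v hv, hzr g v hv, map_zero]
    abel
  · intro g v hv
    have h1 : ((x1 - ⟨d1 ρ z, hd1⟩ : ↥(Z2 L ρ)) : G × G → A) (v, g)
        = (x1 : G × G → A) (v, g) - (ρ v (z g) - z (v * g) + z v) := rfl
    rw [h1, hzx g v hv, hzl g v hv, hzV v hv]
    abel

end Fermat.Agent.S55.L.C0
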