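import Fermat.Agent.S55.L.C0.CycDefs
import Fermat.Agent.S55.L.C0.InfRes

/-!
# S55 L-C0-8 (CycSurj): every class split by `ker χ` is `[cyc χ a]`   (`χ σ = 1`)

PROOF.  By `exists_rep_inflated` (`V = ker χ` is normal) we may assume that `x` vanishes on
`G × V` and `V × G`; then `x (g v, h w) = x (g, h)` and `x (g, h) ∈ A^V` (`inflated_invariant`,
`inflated_fixed`).  `X i j := x (σ ^ i, σ ^ j)` (`i j : ℕ`); `X (i + n) j = X i j = X i (j + n)`
(`σ ^ n ∈ V`), `X i 0 = 0`.  `Y j := ∑ l ∈ range j, X l 1`, `a := Y n`.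
Cocycle identity for `(σ^i, σ^j, σ)`: `X (i+j) 1 + X i j = ρ (σ^i) (X j 1) + X i (j+1)`.
Induction on `j`:  `X i j = - (ρ (σ^i) (Y j) - Y (i + j) + Y i)`.
Periodicity: `Y (l + n) = Y l + a`.  `j = n` in the formula: `ρ (σ^i) a = a`; with `a ∈ A^V` and
`g ∈ σ ^ (lval g) V`: `ρ g a = a` for all `g`.
`y g := Y (lval χ g)` (level, right `V`-invariant).  With `i = lval g`, `j = lval h`:
`x (g, h) = X i j`, `ρ g (y h) = ρ (σ^i) (Y j)` (values in `A^V`), `y (g h) = Y ((i + j) % n)`, so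
`x (g, h) + d1 y (g, h) = Y (i + j) - Y ((i+j) % n) = ((i + j) / n) • a = cyc χ a (g, h)`.
-/

set_option autoImplicit false

namespace Fermat.Agent.S55.L.C0

variable {k : Type*} [CommRing k] {G : Type} [Group G] {L : Lev G}
variable {A : Type*} [AddCommGroup A] [Module k A] {ρ : Representation k G A}
variable {n : ℕ} [NeZero n] {χ : G →* Multiplicative (ZMod n)}

omit [NeZero n] in
/-- `χ (σ ^ i) = ofAdd i` -/
lemma cycSurj_chi_pow {σ : G} (hσ : χ σ = Multiplicative.ofAdd 1) (i : ℕ) :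
    χ (σ ^ i) = Multiplicative.ofAdd ((i : ℕ) : ZMod n) := by
  rw [map_pow, hσ, ← ofAdd_nsmul, nsmul_eq_mul, mul_one]

omit [NeZero n] in
lemma cycSurj_pow_n_mem {σ : G} (hσ : χ σ = Multiplicative.ofAdd 1) : σ ^ n ∈ χ.ker := by
  rw [MonoidHom.mem_ker, cycSurj_chi_pow hσ, ZMod.natCast_self]
  rfl

/-- `g ∈ σ ^ (lval g) V` -/
lemma cycSurj_decomp {σ : G} (hσ : χ σ = Multiplicative.ofAdd 1) (g : G) :
    ∃ v ∈ χ.ker, g = σ ^ (lval χ g) * v := by
  refine ⟨(σ ^ (lval χ g))⁻¹ * g, ?_, by group⟩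
  rw [MonoidHom.mem_ker, map_mul, map_inv, cycSurj_chi_pow hσ, lval, ZMod.natCast_zmod_val,
    ofAdd_toAdd, inv_mul_cancel]

/-- the abstract computation with the double sequence `X` -/
lemma cycSurj_formula {R : ℕ → A →+ A} (X : ℕ → ℕ → A) (h0 : ∀ i, X i 0 = 0)
    (hc : ∀ i j, X (i + j) 1 + X i j = R i (X j 1) + X i (j + 1)) (i j : ℕ) :
    X i j = - (R i (∑ l ∈ Finset.range j, X l 1) - (∑ l ∈ Finset.range (i + j), X l 1)
      + ∑ l ∈ Finset.range i, X l 1) := by
  induction j with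
  | zero => simp [h0]
  | succ j ih =>
    have h := hc i j
    rw [← add_assoc, Finset.sum_range_succ, Finset.sum_range_succ, map_add]
    have h2 : X i (j + 1) = X (i + j) 1 + X i j - R i (X j 1) := by
      rw [h]; abel
    rw [h2, ih]
    abel

omit [NeZero n] in
lemma cycSurj_period (X : ℕ → A) (hp : ∀ l, X (l + n) = X l) (l : ℕ) :
    ∑ m ∈ Finset.range (l + n), X m
      = ∑ m ∈ Finset.range l, X m + ∑ m ∈ Finset.range n, X m := by
  induction l with
  | zero => simp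
  | succ l ih =>
    rw [show l + 1 + n = (l + n) + 1 by ring, Finset.sum_range_succ, ih, hp,
      Finset.sum_range_succ]
    abel

omit [NeZero n] in
lemma cycSurj_period_mul (X : ℕ → A) (hp : ∀ l, X (l + n) = X l) (r q : ℕ) :
    ∑ m ∈ Finset.range (r + q * n), X m
      = ∑ m ∈ Finset.range r, X m + q • ∑ m ∈ Finset.range n, X m := by
  induction q with
  | zero => simp
  | succ q ih =>
    rw [show r + (q + 1) * n = (r + q * n) + n by ring, cycSurj_period X hp, ih, succ_nsmul]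
    abel

omit [NeZero n] in
lemma cycSurj_divMod (X : ℕ → A) (hp : ∀ l, X (l + n) = X l) (m : ℕ) :
    ∑ l ∈ Finset.range m, X l - ∑ l ∈ Finset.range (m % n), X l
      = (m / n) • ∑ l ∈ Finset.range n, X l := by
  conv_lhs => rw [← Nat.mod_add_div m n, mul_comm n, Nat.add_mul_mod_self_right, Nat.mod_mod]
  rw [cycSurj_period_mul X hp]
  abel

theorem exists_cyc_of_splitOn (hρ : IsDiscrete L ρ) (hχ : L.IsOpen χ.ker)
    (hH1 : H1VanishOn L ρ χ.ker) {σ : G} (hσ : χ σ = Multiplicative.ofAdd 1) (x : ↥(Z2 L ρ))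
    (hx : SplitOn L ρ χ.ker (x : G × G → A)) :
    ∃ a : A, (∀ g, ρ g a = a) ∧ (x : G × G → A) - cyc χ a ∈ B2 L ρ := by
  obtain ⟨x', hxx', h1, h2⟩ := exists_rep_inflated hρ hχ hH1 x hx
  have hinv := fun g h v w (hv : v ∈ χ.ker) (hw : w ∈ χ.ker) =>
    inflated_invariant x' h1 h2 g h hv hw
  have hfix := fun g h v (hv : v ∈ χ.ker) => inflated_fixed x' h1 h2 g h hv
  have hn := cycSurj_pow_n_mem hσ
  set X : ℕ → ℕ → A := fun i j => (x' : G × G → A) (σ ^ i, σ ^ j) with hX
  set Y : ℕ → A := fun j => ∑ l ∈ Finset.range j, X l 1 with hY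
  have hX0 : ∀ i, X i 0 = 0 := fun i => by
    simp only [hX, pow_zero]; exact h1 _ 1 (one_mem _)
  have hXp : ∀ i j, X (i + n) j = X i j := fun i j => by
    have := hinv (σ ^ i) (σ ^ j) (σ ^ n) 1 hn (one_mem _)
    simpa only [hX, pow_add, mul_one] using this
  have hXp' : ∀ i j, X i (j + n) = X i j := fun i j => by
    have := hinv (σ ^ i) (σ ^ j) 1 (σ ^ n) (one_mem _) hn
    simpa only [hX, pow_add, mul_one] using this
  have hc : ∀ i j, X (i + j) 1 + X i j = (ρ (σ ^ i)).toAddMonoidHom (X j 1) + X i (j + 1) :=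
    fun i j => by
      have := Z2.cocycle x' (σ ^ i) (σ ^ j) (σ ^ 1)
      simp only [hX, pow_add]
      exact this
  have hform : ∀ i j, X i j = - (ρ (σ ^ i) (Y j) - Y (i + j) + Y i) := fun i j =>
    cycSurj_formula (R := fun i => (ρ (σ ^ i)).toAddMonoidHom) X hX0 hc i j
  have hper : ∀ l, Y (l + n) = Y l + Y n := fun l =>
    cycSurj_period (fun l => X l 1) (fun l => hXp l 1) l
  have hYfix : ∀ j, ∀ v ∈ χ.ker, ρ v (Y j) = Y j := fun j v hv => by
    simp only [hY, map_sum]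
    exact Finset.sum_congr rfl fun l _ => hfix _ _ v hv
  have hσa : ∀ i, ρ (σ ^ i) (Y n) = Y n := fun i => by
    have h := hform i n
    have h0 : X i n = 0 := by
      have := hXp' i 0
      rw [zero_add] at this
      rw [this, hX0]
    rw [h0, hper i] at h
    have h3 : ρ (σ ^ i) (Y n) - Y n = 0 := by
      have : ρ (σ ^ i) (Y n) - (Y i + Y n) + Y i = ρ (σ ^ i) (Y n) - Y n := by abel
      rw [this] at h
      exact neg_eq_zero.1 h.symm
    exact sub_eq_zero.1 h3
  refine ⟨Y n, fun g => ?_, ?_⟩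
  · obtain ⟨v, hv, hg⟩ := cycSurj_decomp hσ g
    rw [hg, map_mul, Module.End.mul_apply, hYfix n v hv, hσa]
  · have hB : (x' : G × G → A) - cyc χ (Y n) ∈ B2 L ρ := by
      rw [mem_B2_iff]
      refine ⟨fun g => - Y (lval χ g), isLev₁_of_isOpen hχ fun g u hu => ?_, fun g h => ?_⟩
      · simp only [lval_mul_of_mem_ker χ g hu]
      · obtain ⟨v, hv, hg⟩ := cycSurj_decomp hσ g
        obtain ⟨w, hw, hh⟩ := cycSurj_decomp hσ h
        have e1 : (x' : G × G → A) (g, h) = X (lval χ g) (lval χ h) := by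
          conv_lhs => rw [hg, hh]
          exact hinv _ _ v w hv hw
        have e2 : ρ g (Y (lval χ h)) = ρ (σ ^ lval χ g) (Y (lval χ h)) := by
          conv_lhs => rw [hg]
          rw [map_mul, Module.End.mul_apply, hYfix _ v hv]
        have e3 := cycSurj_divMod (fun l => X l 1) (fun l => hXp l 1) (lval χ g + lval χ h)
        simp only [Pi.sub_apply, cyc_apply, map_neg, lval_mul, e1, e2, hform]
        rw [← e3]
        abel
    have hB' : (x : G × G → A) - (x' : G × G → A) ∈ B2 L ρ := by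
      have := hxx'.symm
      rw [← sub_eq_zero, ← map_sub, H2π_eq_zero_iff] at this
      exact this
    have := (B2 L ρ).add_mem hB' hB
    simpa using this

end Fermat.Agent.S55.L.C0
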