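import Fermat.Agent.S55.Fc.Basic

/-!
# S55 L-C0 (Defs): "relative" vanishing conditions, phrased with cochains on the ambient group

To avoid subgroups of subgroups, restriction to an open subgroup `U ≤ G` is phrased with level
cochains on `G` itself:
* `SplitOn L ρ U x`  : the 2-cochain `x` restricted to `U × U` is a level coboundary
                       (`⇔ res_U [x] = 0`, see `Bridge.lean`);
* `H1VanishOn L ρ V` : `H¹(V, A) = 0`.
-/

set_option autoImplicit false

namespace Fermat.Agent.S55.L.C0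

variable {k : Type*} [CommRing k] {G : Type} [Group G] (L : Lev G)
variable {A : Type*} [AddCommGroup A] [Module k A] (ρ : Representation k G A)

/-- the 2-cochain `x` is a level coboundary on the subgroup `U` -/
def SplitOn (U : Subgroup G) (x : G × G → A) : Prop :=
  ∃ y : G → A, IsLev₁ L y ∧ ∀ u ∈ U, ∀ u' ∈ U, x (u, u') = ρ u (y u') - y (u * u') + y u

/-- `H¹(V, A) = 0`: every level cochain which is a cocycle on `V` is a coboundary on `V`. -/
def H1VanishOn (V : Subgroup G) : Prop :=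
  ∀ z : G → A, IsLev₁ L z → (∀ v ∈ V, ∀ w ∈ V, z (v * w) = ρ v (z w) + z v) →
    ∃ m : A, ∀ v ∈ V, z v = ρ v m - m

variable {L ρ}

lemma SplitOn.mono {U U' : Subgroup G} (h : U' ≤ U) {x : G × G → A} (hx : SplitOn L ρ U x) :
    SplitOn L ρ U' x := by
  obtain ⟨y, hy, hxy⟩ := hx
  exact ⟨y, hy, fun u hu u' hu' => hxy u (h hu) u' (h hu')⟩

lemma SplitOn.add {U : Subgroup G} {x x' : G × G → A} (hx : SplitOn L ρ U x)
    (hx' : SplitOn L ρ U x') : SplitOn L ρ U (x + x') := by
  obtain ⟨y, hy, hxy⟩ := hx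
  obtain ⟨y', hy', hxy'⟩ := hx'
  refine ⟨fun g => y g + y' g, hy.map₂ hy' (· + ·), fun u hu u' hu' => ?_⟩
  simp only [Pi.add_apply, hxy u hu u' hu', hxy' u hu u' hu', map_add]
  abel

lemma SplitOn.neg {U : Subgroup G} {x : G × G → A} (hx : SplitOn L ρ U x) :
    SplitOn L ρ U (-x) := by
  obtain ⟨y, hy, hxy⟩ := hx
  refine ⟨fun g => - y g, hy.comp (- ·), fun u hu u' hu' => ?_⟩
  simp only [Pi.neg_apply, hxy u hu u' hu', map_neg]
  abel

lemma SplitOn.sub {U : Subgroup G} {x x' : G × G → A} (hx : SplitOn L ρ U x)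
    (hx' : SplitOn L ρ U x') : SplitOn L ρ U (x - x') := by
  rw [sub_eq_add_neg]; exact hx.add hx'.neg

lemma splitOn_of_mem_B2 (U : Subgroup G) {x : G × G → A} (hx : x ∈ B2 L ρ) : SplitOn L ρ U x := by
  obtain ⟨y, hy, h⟩ := (mem_B2_iff L ρ x).1 hx
  exact ⟨y, hy, fun u _ u' _ => h u u'⟩

/-- `SplitOn` only depends on the cohomology class -/
lemma splitOn_congr (U : Subgroup G) {x x' : ↥(Z2 L ρ)} (h : H2π L ρ x = H2π L ρ x') :
    SplitOn L ρ U (x : G × G → A) ↔ SplitOn L ρ U (x' : G × G → A) := by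
  have hb : (x : G × G → A) - (x' : G × G → A) ∈ B2 L ρ := by
    rw [← sub_eq_zero, ← map_sub, H2π_eq_zero_iff] at h
    exact h
  constructor
  · intro hx
    have := hx.sub (splitOn_of_mem_B2 U hb)
    simpa using this
  · intro hx
    have := hx.add (splitOn_of_mem_B2 U hb)
    simpa using this

/-- every level 2-cocycle is split by a normal level -/
theorem exists_splitOn (x : ↥(Z2 L ρ)) :
    ∃ W ∈ L.sets, W.Normal ∧ SplitOn L ρ W (x : G × G → A) := by
  obtain ⟨W, hW, hWn, hr, -⟩ := (Z2.isLev x).exists_normal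
  refine ⟨W, hW, hWn, fun _ => (x : G × G → A) (1, 1), isLev₁_const L _, fun u hu u' hu' => ?_⟩
  have hc : ∀ w ∈ W, ∀ w' ∈ W, (x : G × G → A) (w, w') = (x : G × G → A) (1, 1) := by
    intro w hw w' hw'
    simpa using hr 1 1 w hw w' hw'
  have := Z2.cocycle x u u' 1
  rw [hc _ (W.mul_mem hu hu') 1 W.one_mem, hc u hu u' hu', hc u' hu' 1 W.one_mem, mul_one,
    hc u hu u' hu'] at this
  rw [hc u hu u' hu']
  have h2 : ρ u ((x : G × G → A) (1, 1)) = (x : G × G → A) (1, 1) := by
    exact (add_right_cancel this).symm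
  rw [h2]; abel

end Fermat.Agent.S55.L.C0
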