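import Fermat.Agent.S55.L.C0.CycDefs

/-!
# S55 L-C0-6 (CycRed): reduction to surjective characters; construction of characters

PROOF of `exists_surjective_chi`.  Let `m = Nat.card χ.range` (`m ∣ n` by Lagrange,
`Nat.card (Multiplicative (ZMod n)) = n`), `n = f * m`.  For every `g`, `m • χ g = 0`, i.e.
`n ∣ m * lval χ g`, so `f ∣ lval χ g`.  `χ' g := ofAdd ((lval χ g / f : ℕ) : ZMod m)` is a
homomorphism (`lval_mul`, `(f i + f j) % (f m) = f ((i + j) % m)`: `Nat.mul_mod_mul_left`),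
`lval χ' g = lval χ g / f` (it is `< m`), with the same kernel; it is injective on `G ⧸ ker`, whose
cardinality is `m`, so surjective.  `(f i + f j) / (f m) = (i + j) / m`: `Nat.mul_div_mul_left`.
-/

set_option autoImplicit false

namespace Fermat.Agent.S55.L.C0

variable {G : Type} [Group G]

theorem CycRed_card_mul_zmod (n : ℕ) [NeZero n] : Nat.card (Multiplicative (ZMod n)) = n := by
  rw [Nat.card_congr Multiplicative.toAdd, Nat.card_zmod]

theorem CycRed_index_dvd {n : ℕ} [NeZero n] (χ : G →* Multiplicative (ZMod n)) :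
    χ.ker.index ∣ n := by
  rw [Subgroup.index_ker]
  have := Subgroup.card_subgroup_dvd_card χ.range
  rwa [CycRed_card_mul_zmod] at this

theorem CycRed_dvd_lval {n : ℕ} [NeZero n] (χ : G →* Multiplicative (ZMod n)) {f : ℕ}
    (hf : n = f * χ.ker.index) (g : G) : f ∣ lval χ g := by
  have hm0 : χ.ker.index ≠ 0 := by
    intro h
    rw [h, mul_zero] at hf
    exact NeZero.ne n hf
  have h1 : (⟨χ g, g, rfl⟩ : χ.range) ^ Nat.card χ.range = 1 := pow_card_eq_one'
  rw [← Subgroup.index_ker] at h1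
  have h2 : (χ g) ^ χ.ker.index = 1 := congrArg Subtype.val h1
  have h3 : χ.ker.index • Multiplicative.toAdd (χ g) = 0 := by
    rw [← toAdd_pow, h2, toAdd_one]
  have h4 : ((χ.ker.index * lval χ g : ℕ) : ZMod n) = 0 := by
    rw [Nat.cast_mul, lval, ZMod.natCast_val, ZMod.cast_id', id, ← nsmul_eq_mul, h3]
  rw [ZMod.natCast_eq_zero_iff] at h4
  conv_lhs at h4 => rw [hf, mul_comm]
  exact Nat.dvd_of_mul_dvd_mul_left (Nat.pos_of_ne_zero hm0) h4

theorem exists_surjective_chi {n : ℕ} [NeZero n] (χ : G →* Multiplicative (ZMod n)) :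
    ∃ (m : ℕ) (_ : NeZero m) (χ' : G →* Multiplicative (ZMod m)), Function.Surjective χ' ∧
      χ'.ker = χ.ker ∧ m = χ.ker.index ∧
      ∀ g h, (lval χ' g + lval χ' h) / m = (lval χ g + lval χ h) / n := by
  obtain ⟨f, hf⟩ := CycRed_index_dvd χ
  rw [mul_comm] at hf
  set m := χ.ker.index with hm
  have hn0 := NeZero.ne n
  have hm0 : m ≠ 0 := by
    intro h
    rw [h, mul_zero] at hf
    exact hn0 hf
  have hf0 : 0 < f := by
    rcases Nat.eq_zero_or_pos f with h | h
    · rw [h, zero_mul] at hf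
      exact absurd hf hn0
    · exact h
  have : NeZero m := ⟨hm0⟩
  have hdvd : ∀ g, f ∣ lval χ g := CycRed_dvd_lval χ hf
  have hlt : ∀ g, lval χ g / f < m := by
    intro g
    rw [Nat.div_lt_iff_lt_mul hf0, mul_comm, ← hf]
    exact lval_lt χ g
  have hmul : ∀ g h, lval χ (g * h) / f = (lval χ g / f + lval χ h / f) % m := by
    intro g h
    obtain ⟨i, hi⟩ := hdvd g
    obtain ⟨j, hj⟩ := hdvd h
    rw [lval_mul, hi, hj, hf, ← mul_add, Nat.mul_mod_mul_left, Nat.mul_div_cancel_left _ hf0,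
      Nat.mul_div_cancel_left _ hf0, Nat.mul_div_cancel_left _ hf0]
  let χ' : G →* Multiplicative (ZMod m) := MonoidHom.mk'
    (fun g => Multiplicative.ofAdd ((lval χ g / f : ℕ) : ZMod m)) (by
      intro g h
      rw [← ofAdd_add, hmul, ZMod.natCast_mod, Nat.cast_add])
  have hl : ∀ g, lval χ' g = lval χ g / f := by
    intro g
    show ((lval χ g / f : ℕ) : ZMod m).val = _
    rw [ZMod.val_natCast, Nat.mod_eq_of_lt (hlt g)]
  have hker : χ'.ker = χ.ker := by
    ext g
    rw [← lval_eq_zero_iff, ← lval_eq_zero_iff, hl]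
    obtain ⟨i, hi⟩ := hdvd g
    rw [hi, Nat.mul_div_cancel_left _ hf0]
    constructor
    · intro h; rw [h, mul_zero]
    · intro h
      exact (mul_eq_zero.mp h).resolve_left hf0.ne'
  refine ⟨m, this, χ', ?_, hker, rfl, fun g h => ?_⟩
  · rw [← MonoidHom.range_eq_top]
    apply Subgroup.eq_top_of_card_eq
    rw [← Subgroup.index_ker, hker, CycRed_card_mul_zmod]
  · rw [hl, hl]
    obtain ⟨i, hi⟩ := hdvd g
    obtain ⟨j, hj⟩ := hdvd h
    rw [hi, hj, Nat.mul_div_cancel_left _ hf0, Nat.mul_div_cancel_left _ hf0, ← mul_add]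
    conv_rhs => rw [hf]
    rw [Nat.mul_div_mul_left _ _ hf0]

/-- a normal subgroup with cyclic quotient generated by `σ` is the kernel of a character with
`χ σ = 1`.  (`zmodCyclicMulEquiv` / `zmultiplesQuotientStabilizerEquiv` / by hand:
`χ g = i` if `g ∈ σ ^ i V`.) -/
theorem exists_chi_of_cyclic (V : Subgroup G) [V.Normal] [V.FiniteIndex] (σ : G)
    (hσ : ∀ g : G, ∃ i : ℕ, (σ ^ i)⁻¹ * g ∈ V) :
    ∃ (_ : NeZero V.index) (χ : G →* Multiplicative (ZMod V.index)), χ.ker = V ∧
      χ σ = Multiplicative.ofAdd 1 ∧ Function.Surjective χ := by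
  have hN : NeZero V.index := ⟨Subgroup.FiniteIndex.index_ne_zero⟩
  have hfin : Finite (G ⧸ V) := Subgroup.finite_quotient_of_finiteIndex
  have hpow : ((σ : G ⧸ V)) ^ V.index = 1 := by
    rw [Subgroup.index_eq_card]
    exact pow_card_eq_one'
  -- the homomorphism `ZMod N → G/V`
  let ψ : ZMod V.index →+ Additive (G ⧸ V) :=
    ZMod.lift V.index ⟨zmultiplesHom (Additive (G ⧸ V)) (Additive.ofMul (σ : G ⧸ V)), by
      rw [zmultiplesHom_apply, natCast_zsmul, ← ofMul_pow, hpow, ofMul_one]⟩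
  have hψ : ∀ i : ℕ, ψ (i : ZMod V.index) = Additive.ofMul ((σ : G ⧸ V) ^ i) := by
    intro i
    have := ZMod.lift_coe V.index (⟨zmultiplesHom (Additive (G ⧸ V))
      (Additive.ofMul (σ : G ⧸ V)), by
      rw [zmultiplesHom_apply, natCast_zsmul, ← ofMul_pow, hpow, ofMul_one]⟩ :
        {f : ℤ →+ Additive (G ⧸ V) // f V.index = 0}) (i : ℤ)
    rw [Int.cast_natCast] at this
    rw [this]
    simp
  have hsurj : Function.Surjective ψ := by
    intro q
    obtain ⟨g, hg⟩ := QuotientGroup.mk_surjective (Additive.toMul q)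
    obtain ⟨i, hi⟩ := hσ g
    refine ⟨(i : ZMod V.index), ?_⟩
    rw [hψ, ← QuotientGroup.mk_pow, QuotientGroup.eq.mpr hi, hg, ofMul_toMul]
  have hbij : Function.Bijective ψ := by
    refine (Nat.bijective_iff_surjective_and_card ψ).mpr ⟨hsurj, ?_⟩
    rw [Nat.card_zmod, Nat.card_congr Additive.toMul, Subgroup.index_eq_card]
  let e : ZMod V.index ≃+ Additive (G ⧸ V) := AddEquiv.ofBijective ψ hbij
  have he1 : e 1 = Additive.ofMul (σ : G ⧸ V) := by
    have := hψ 1
    rw [Nat.cast_one, pow_one] at this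
    exact this
  let χ : G →* Multiplicative (ZMod V.index) := MonoidHom.mk'
    (fun g => Multiplicative.ofAdd (e.symm (Additive.ofMul (g : G ⧸ V)))) (by
      intro g h
      rw [← ofAdd_add, ← map_add, ← ofMul_mul, QuotientGroup.mk_mul])
  refine ⟨hN, χ, ?_, ?_, ?_⟩
  · ext g
    rw [MonoidHom.mem_ker]
    show Multiplicative.ofAdd (e.symm (Additive.ofMul (g : G ⧸ V))) = 1 ↔ _
    rw [ofAdd_eq_one, EmbeddingLike.map_eq_zero_iff, ofMul_eq_zero, QuotientGroup.eq_one_iff]
  · show Multiplicative.ofAdd (e.symm (Additive.ofMul (σ : G ⧸ V))) = _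
    rw [← he1, AddEquiv.symm_apply_apply]
  · intro y
    obtain ⟨g, hg⟩ := QuotientGroup.mk_surjective (Additive.toMul (e (Multiplicative.toAdd y)))
    refine ⟨g, ?_⟩
    show Multiplicative.ofAdd (e.symm (Additive.ofMul (g : G ⧸ V))) = _
    rw [hg, ofMul_toMul, AddEquiv.symm_apply_apply, ofAdd_toAdd]

end Fermat.Agent.S55.L.C0
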