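import Fermat.Agent.S55.L.C0.CycDefs

/-!
# S55 L-C0-7 (CycZero): `[cyc χ a] = 0 ⇔ a` is a norm   (`χ σ = 1`)

`V = ker χ`, `χ σ = ofAdd 1` (so `χ` is onto, `lval χ (σ ^ i) = i % n`, `g ∈ σ ^ (lval χ g) V`,
`σ ^ n ∈ V`).  `N b := ∑ i ∈ range n, ρ (σ ^ i) b`.

PROOF.  (⇐) `a = N b`, `b ∈ A^V`.  `S j := ∑ i ∈ range j, ρ (σ ^ i) b` (`j : ℕ`),
`y g := S (lval χ g)` (level: right `V`-invariant).  For `c ∈ A^V` one has `ρ g c = ρ (σ ^ lval g) c`.
`ρ (σ^i) (S j) + S i = S (i + j)` (`Finset.sum_range_add`-type), `S (l + n) = S l + N b`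
(`ρ (σ ^ n) b = b`).  With `i = lval g`, `j = lval h`: `lval (g h) = (i + j) % n`; if `i + j < n`
then `d1 y (g, h) = S (i+j) - S (i+j) = 0`, else `= S (i + j) - S (i + j - n) = N b`.
(⇒) `cyc χ a = d1 y`, `y` level.  On `V × V`, `cyc = 0`, so `y` is a cocycle on `V`:
`y v = ρ v m - m` on `V` (`H1VanishOn`).  Replace `y` by `y - d0 m` (`d1 (d0 m) = 0`, level by
`d0_isLev₁`): `y = 0` on `V`.  `cyc (g, v) = 0` gives `y (g v) = y g`; `cyc (v, g) = 0` gives
`y (v g) = ρ v (y g)`; normality gives `ρ v (y g) = y g`.  If `n = 1`, take `b = a`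
(`range 1`, `σ ^ 0 = 1`).  If `n > 1`: `lval σ = 1`, `lval (σ ^ i) = i` for `i < n`;
`∑ i ∈ range n, cyc (σ ^ i, σ) = a` (only `i = n - 1` contributes) and
`∑ i ∈ range n, d1 y (σ ^ i, σ) = N (y σ) - y (σ ^ n) + y 1 = N (y σ)` (telescoping
`Finset.sum_range_succ_sub_sum` / `Finset.sum_range_sub`, `σ ^ n ∈ V`).  So `b = y σ`.
-/

set_option autoImplicit false
set_option linter.unusedSectionVars false
set_option linter.unusedVariables false

namespace Fermat.Agent.S55.L.C0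

variable {k : Type*} [CommRing k] {G : Type} [Group G] {L : Lev G}
variable {A : Type*} [AddCommGroup A] [Module k A] {ρ : Representation k G A}
variable {n : ℕ} [NeZero n] {χ : G →* Multiplicative (ZMod n)}

lemma CycZero_chi_pow {σ : G} (hσ : χ σ = Multiplicative.ofAdd 1) (i : ℕ) :
    χ (σ ^ i) = Multiplicative.ofAdd (i : ZMod n) := by
  rw [map_pow, hσ, ← ofAdd_nsmul, nsmul_eq_mul, mul_one]

lemma CycZero_lval_pow {σ : G} (hσ : χ σ = Multiplicative.ofAdd 1) (i : ℕ) :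
    lval χ (σ ^ i) = i % n := by
  unfold lval
  rw [CycZero_chi_pow hσ, toAdd_ofAdd, ZMod.val_natCast]

lemma CycZero_pow_n_mem {σ : G} (hσ : χ σ = Multiplicative.ofAdd 1) : σ ^ n ∈ χ.ker := by
  rw [← lval_eq_zero_iff, CycZero_lval_pow hσ, Nat.mod_self]

/-- `g ∈ σ ^ (lval g) * ker χ` -/
lemma CycZero_decomp {σ : G} (hσ : χ σ = Multiplicative.ofAdd 1) (g : G) :
    (σ ^ lval χ g)⁻¹ * g ∈ χ.ker := by
  rw [MonoidHom.mem_ker, map_mul, map_inv, CycZero_chi_pow hσ, inv_mul_eq_one]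
  unfold lval
  rw [ZMod.natCast_zmod_val]
  rfl

lemma CycZero_rho_eq {σ : G} (hσ : χ σ = Multiplicative.ofAdd 1) {c : A}
    (hc : ∀ v ∈ χ.ker, ρ v c = c) (g : G) : ρ g c = ρ (σ ^ lval χ g) c := by
  have h := hc _ (CycZero_decomp hσ g)
  have e : g = σ ^ lval χ g * ((σ ^ lval χ g)⁻¹ * g) := by group
  conv_lhs => rw [e, map_mul, Module.End.mul_apply, h]

lemma CycZero_fixed_of_normal {c : A} (hc : ∀ v ∈ χ.ker, ρ v c = c) (g : G) :
    ∀ v ∈ χ.ker, ρ v (ρ g c) = ρ g c := by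
  intro v hv
  have h1 : g⁻¹ * v * g ∈ χ.ker := by
    have := (MonoidHom.normal_ker χ).conj_mem v hv g⁻¹
    simpa using this
  have e : v * g = g * (g⁻¹ * v * g) := by group
  rw [← Module.End.mul_apply, ← map_mul, e, map_mul, Module.End.mul_apply, hc _ h1]

/-- partial norms -/
noncomputable def CycZero_S (ρ : Representation k G A) (σ : G) (b : A) (j : ℕ) : A :=
  ∑ i ∈ Finset.range j, ρ (σ ^ i) b

lemma CycZero_S_add (σ : G) (b : A) (i j : ℕ) :
    CycZero_S ρ σ b (i + j) = ρ (σ ^ i) (CycZero_S ρ σ b j) + CycZero_S ρ σ b i := by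
  unfold CycZero_S
  rw [Finset.sum_range_add, map_sum, add_comm]
  congr 1
  refine Finset.sum_congr rfl fun x _ => ?_
  rw [pow_add, map_mul, Module.End.mul_apply]

lemma CycZero_S_fixed {b : A} (hb : ∀ v ∈ χ.ker, ρ v b = b) (σ : G) (j : ℕ) :
    ∀ v ∈ χ.ker, ρ v (CycZero_S ρ σ b j) = CycZero_S ρ σ b j := by
  intro v hv
  unfold CycZero_S
  rw [map_sum]
  exact Finset.sum_congr rfl fun x _ => CycZero_fixed_of_normal hb _ v hv

lemma CycZero_S_mul_add {σ : G} (hσ : χ σ = Multiplicative.ofAdd 1) {b : A}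
    (hb : ∀ v ∈ χ.ker, ρ v b = b) (q r : ℕ) :
    CycZero_S ρ σ b (n * q + r) = q • CycZero_S ρ σ b n + CycZero_S ρ σ b r := by
  induction q with
  | zero => simp
  | succ q ih =>
    have e : n * (q + 1) + r = n + (n * q + r) := by ring
    rw [e, CycZero_S_add, ih]
    have h1 : ∀ c : A, (∀ v ∈ χ.ker, ρ v c = c) → ρ (σ ^ n) c = c :=
      fun c hc => hc _ (CycZero_pow_n_mem hσ)
    rw [map_add, map_nsmul, h1 _ (CycZero_S_fixed hb σ n), h1 _ (CycZero_S_fixed hb σ r),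
      succ_nsmul]
    abel

theorem cyc_mem_B2_of_norm (hχ : L.IsOpen χ.ker) {σ : G} (hσ : χ σ = Multiplicative.ofAdd 1)
    (b : A) (hb : ∀ v ∈ χ.ker, ρ v b = b) :
    cyc χ (∑ i ∈ Finset.range n, ρ (σ ^ i) b) ∈ B2 L ρ := by
  rw [mem_B2_iff]
  refine ⟨fun g => CycZero_S ρ σ b (lval χ g), ?_, fun g h => ?_⟩
  · obtain ⟨U, hU, hUχ⟩ := hχ
    exact ⟨U, hU, fun g u hu => by
      show CycZero_S ρ σ b (lval χ (g * u)) = _
      rw [lval_mul_of_mem_ker χ g (hUχ hu)]⟩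
  · show _ = ρ g (CycZero_S ρ σ b (lval χ h)) - CycZero_S ρ σ b (lval χ (g * h))
      + CycZero_S ρ σ b (lval χ g)
    rw [cyc_apply, lval_mul, CycZero_rho_eq hσ (CycZero_S_fixed hb σ _) g]
    set i := lval χ g
    set j := lval χ h
    have h1 := CycZero_S_add (ρ := ρ) σ b i j
    have h2 := CycZero_S_mul_add (ρ := ρ) hσ hb ((i + j) / n) ((i + j) % n)
    rw [Nat.div_add_mod] at h2
    have h3 : (∑ i ∈ Finset.range n, ρ (σ ^ i) b) = CycZero_S ρ σ b n := rfl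
    rw [h3]
    have h4 : ((i + j) / n) • CycZero_S ρ σ b n
        = CycZero_S ρ σ b (i + j) - CycZero_S ρ σ b ((i + j) % n) := by
      rw [h2]; abel
    rw [h4, h1]
    abel

theorem exists_norm_of_cyc_mem_B2 (hρ : IsDiscrete L ρ) (hH1 : H1VanishOn L ρ χ.ker) {σ : G}
    (hσ : χ σ = Multiplicative.ofAdd 1) {a : A} (ha : ∀ g, ρ g a = a)
    (h : cyc χ a ∈ B2 L ρ) :
    ∃ b : A, (∀ v ∈ χ.ker, ρ v b = b) ∧ a = ∑ i ∈ Finset.range n, ρ (σ ^ i) b := by
  by_cases hn1 : n = 1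
  · subst hn1
    exact ⟨a, fun v _ => ha v, by simp⟩
  have hn2 : 2 ≤ n := by
    have := NeZero.ne n
    omega
  obtain ⟨y₀, hy₀, hd₀⟩ := (mem_B2_iff L ρ _).1 h
  obtain ⟨m, hm⟩ := hH1 y₀ hy₀ (by
    intro v hv w _
    have := hd₀ v w
    rw [cyc_of_mem_ker_left χ a hv] at this
    have h2 : y₀ (v * w) = ρ v (y₀ w) + y₀ v - 0 := by rw [this]; abel
    rw [h2, sub_zero])
  set y : G → A := fun g => y₀ g - (ρ g m - m) with hy
  have hd : ∀ g h, cyc χ a (g, h) = ρ g (y h) - y (g * h) + y g := by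
    intro g h
    rw [hd₀ g h]
    simp only [hy, map_sub, map_mul, Module.End.mul_apply]
    abel
  have hyV : ∀ v ∈ χ.ker, y v = 0 := by
    intro v hv
    simp only [hy, hm v hv, sub_self]
  have hr : ∀ g, ∀ v ∈ χ.ker, y (g * v) = y g := by
    intro g v hv
    have := hd g v
    rw [cyc_of_mem_ker_right χ a hv, hyV v hv, map_zero] at this
    have h2 : y (g * v) = y g - 0 := by rw [this]; abel
    rw [h2, sub_zero]
  have hl : ∀ g, ∀ v ∈ χ.ker, y (v * g) = ρ v (y g) := by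
    intro g v hv
    have := hd v g
    rw [cyc_of_mem_ker_left χ a hv, hyV v hv] at this
    have h2 : y (v * g) = ρ v (y g) - 0 := by rw [this]; abel
    rw [h2, sub_zero]
  have hfix : ∀ g, ∀ v ∈ χ.ker, ρ v (y g) = y g := by
    intro g v hv
    have h1 : g⁻¹ * v * g ∈ χ.ker := by
      have := (MonoidHom.normal_ker χ).conj_mem v hv g⁻¹
      simpa using this
    have e : v * g = g * (g⁻¹ * v * g) := by group
    rw [← hl g v hv, e, hr g _ h1]
  refine ⟨y σ, hfix σ, ?_⟩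
  have hsum : ∑ i ∈ Finset.range n, cyc χ a (σ ^ i, σ)
      = ∑ i ∈ Finset.range n, ρ (σ ^ i) (y σ) - (y (σ ^ n) - y (σ ^ 0)) := by
    rw [← Finset.sum_range_sub (fun i => y (σ ^ i)) n, ← Finset.sum_sub_distrib]
    refine Finset.sum_congr rfl fun i _ => ?_
    rw [hd, ← pow_succ]
    abel
  rw [hyV _ (CycZero_pow_n_mem hσ), pow_zero, hyV 1 (one_mem _), sub_zero, sub_zero] at hsum
  rw [← hsum]
  have hlσ : lval χ σ = 1 := by
    have := CycZero_lval_pow hσ 1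
    rw [pow_one, Nat.mod_eq_of_lt (by omega)] at this
    exact this
  rw [Finset.sum_eq_single (n - 1)]
  · rw [cyc_apply, CycZero_lval_pow hσ, hlσ, Nat.mod_eq_of_lt (by omega),
      show n - 1 + 1 = n by omega, Nat.div_self (by omega), one_smul]
  · intro i hi hne
    rw [Finset.mem_range] at hi
    rw [cyc_apply, CycZero_lval_pow hσ, hlσ, Nat.mod_eq_of_lt hi,
      Nat.div_eq_of_lt (by omega), zero_smul]
  · intro hh
    exact absurd (Finset.mem_range.mpr (by omega)) hh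

end Fermat.Agent.S55.L.C0
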