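import Fermat.Agent.S55.L.C0.Bridge
import Fermat.Agent.S55.L.C0.CycRed
import Fermat.Agent.S55.L.C0.CycZero
import Fermat.Agent.S55.L.C0.CycSurj

/-!
# S55 L-C0-9 (CycMain): `A^G / N A^V ≃ ker (res : H²(G, A) → H²(V, A))`, `V = ker χ`, any `χ`
-/

set_option autoImplicit false

namespace Fermat.Agent.S55.L.C0

variable {k : Type*} [CommRing k] {G : Type} [Group G] {L : Lev G}
variable {A : Type*} [AddCommGroup A] [Module k A] {ρ : Representation k G A}

/-- `a = N_{G/V} b` for some `b ∈ A^V` -/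
def IsNormFrom (ρ : Representation k G A) (V : Subgroup G) (a : A) : Prop :=
  ∃ b : A, (∀ v ∈ V, ρ v b = b) ∧ a = ∑ᶠ c : G ⧸ V, ρ c.out b

/-- the norm can be computed with any system of representatives -/
theorem finsum_out_eq_sum {V : Subgroup G} {ι : Type*} [Fintype ι] (r : ι → G)
    (hr : Function.Bijective (fun i => (r i : G ⧸ V))) {b : A} (hb : ∀ v ∈ V, ρ v b = b) :
    ∑ᶠ c : G ⧸ V, ρ c.out b = ∑ i, ρ (r i) b := by
  rw [← finsum_comp_equiv (Equiv.ofBijective _ hr), finsum_eq_sum_of_fintype]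
  refine Finset.sum_congr rfl fun i _ => ?_
  obtain ⟨h, hh⟩ := QuotientGroup.mk_out_eq_mul V (r i)
  simp only [Equiv.ofBijective_apply]
  rw [hh, map_mul, Module.End.mul_apply, hb _ h.2]

lemma chi_pow_of_eq_one {n : ℕ} {χ : G →* Multiplicative (ZMod n)} {σ : G}
    (hσ : χ σ = Multiplicative.ofAdd 1) (i : ℕ) :
    χ (σ ^ i) = Multiplicative.ofAdd (i : ZMod n) := by
  rw [map_pow, hσ, ← ofAdd_nsmul, nsmul_eq_mul, mul_one]

/-- the norm for a cyclic quotient -/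
theorem finsum_out_eq_sum_range {n : ℕ} [NeZero n] {χ : G →* Multiplicative (ZMod n)} {σ : G}
    (hσ : χ σ = Multiplicative.ofAdd 1) {b : A} (hb : ∀ v ∈ χ.ker, ρ v b = b) :
    ∑ᶠ c : G ⧸ χ.ker, ρ c.out b = ∑ i ∈ Finset.range n, ρ (σ ^ i) b := by
  have hbij : Function.Bijective (fun i : Fin n => ((σ ^ (i : ℕ) : G) : G ⧸ χ.ker)) := by
    constructor
    · intro i j hij
      have h1 : χ (σ ^ (i : ℕ)) = χ (σ ^ (j : ℕ)) := by
        have := QuotientGroup.eq.1 hij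
        rw [MonoidHom.mem_ker, map_mul, map_inv, inv_mul_eq_one] at this
        exact this
      rw [chi_pow_of_eq_one hσ, chi_pow_of_eq_one hσ] at h1
      have h2 : ((i : ℕ) : ZMod n) = ((j : ℕ) : ZMod n) := Multiplicative.ofAdd.injective h1
      have h3 := congrArg ZMod.val h2
      rw [ZMod.val_natCast, ZMod.val_natCast, Nat.mod_eq_of_lt i.2, Nat.mod_eq_of_lt j.2] at h3
      exact Fin.ext h3
    · intro c
      induction c using QuotientGroup.induction_on with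
      | H g =>
        refine ⟨⟨lval χ g, lval_lt χ g⟩, ?_⟩
        apply QuotientGroup.eq.2
        rw [MonoidHom.mem_ker, map_mul, map_inv, inv_mul_eq_one, chi_pow_of_eq_one hσ]
        simp [lval]
  rw [finsum_out_eq_sum _ hbij hb, Fin.sum_univ_eq_sum_range (fun i => ρ (σ ^ i) b) n]

variable {n : ℕ} [NeZero n] (χ : G →* Multiplicative (ZMod n))

theorem cycH2_eq_zero_iff (hρ : IsDiscrete L ρ) (hχ : L.IsOpen χ.ker)
    (hH1 : H1VanishOn L ρ χ.ker) (a : ρ.invariants) :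
    cycH2 L ρ χ hχ a = 0 ↔ IsNormFrom ρ χ.ker (a : A) := by
  obtain ⟨m, hm, χ', hsurj, hker, -, hcarry⟩ := exists_surjective_chi χ
  obtain ⟨σ, hσ⟩ := hsurj (Multiplicative.ofAdd 1)
  have hcyc : ∀ c : A, cyc χ c = cyc χ' c := by
    intro c; funext ⟨g, h⟩; simp only [cyc_apply, hcarry]
  rw [cycH2_apply, H2π_eq_zero_iff]
  show cyc χ (a : A) ∈ B2 L ρ ↔ _
  rw [hcyc, ← hker]
  rw [← hker] at hH1 hχ
  constructor
  · intro h
    obtain ⟨b, hb, hab⟩ := exists_norm_of_cyc_mem_B2 hρ hH1 hσ a.2 h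
    exact ⟨b, hb, by rw [hab, finsum_out_eq_sum_range hσ hb]⟩
  · rintro ⟨b, hb, hab⟩
    rw [hab, finsum_out_eq_sum_range hσ hb]
    exact cyc_mem_B2_of_norm hχ hσ b hb

theorem exists_cycH2_eq (hρ : IsDiscrete L ρ) (hχ : L.IsOpen χ.ker)
    (hH1 : H1VanishOn L ρ χ.ker) (x : ↥(Z2 L ρ)) (hx : SplitOn L ρ χ.ker (x : G × G → A)) :
    ∃ a : ρ.invariants, cycH2 L ρ χ hχ a = H2π L ρ x := by
  obtain ⟨m, hm, χ', hsurj, hker, -, hcarry⟩ := exists_surjective_chi χ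
  obtain ⟨σ, hσ⟩ := hsurj (Multiplicative.ofAdd 1)
  have hcyc : ∀ c : A, cyc χ c = cyc χ' c := by
    intro c; funext ⟨g, h⟩; simp only [cyc_apply, hcarry]
  have hχ' : L.IsOpen χ'.ker := hker ▸ hχ
  obtain ⟨a, ha, hxa⟩ := exists_cyc_of_splitOn hρ hχ' (hker ▸ hH1) hσ x (hker ▸ hx)
  refine ⟨⟨a, ha⟩, ?_⟩
  rw [cycH2_apply, eq_comm, ← sub_eq_zero, ← map_sub, H2π_eq_zero_iff]
  show (x : G × G → A) - cyc χ a ∈ B2 L ρ
  rw [hcyc]; exact hxa

/-- `im (a ↦ [cyc χ a]) = ker res_V` -/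
theorem range_cycH2 (hρ : IsDiscrete L ρ) (hχ : L.IsOpen χ.ker) (hH1 : H1VanishOn L ρ χ.ker) :
    LinearMap.range (cycH2 L ρ χ hχ) =
      LinearMap.ker (PairHom.res (LH := L.sub χ.ker) ρ χ.ker.subtype
        (L.cont_comap χ.ker.subtype)).H2map := by
  ext c
  induction c using H2_induction with
  | h x =>
    rw [LinearMap.mem_ker, resSub_eq_zero_iff ρ hχ, LinearMap.mem_range]
    constructor
    · rintro ⟨a, ha⟩
      rw [cycH2_apply] at ha
      exact (splitOn_congr _ ha).1 (splitOn_ker_cyc L ρ χ _)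
    · intro hx
      exact exists_cycH2_eq χ hρ hχ hH1 x hx

end Fermat.Agent.S55.L.C0
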