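import Fermat.Agent.S55.L.C0.Right

/-!
# S55 L-C0-3 (Index): `res_U x = 0 ⇒ [G : U] x = 0`

PROOF.  By `exists_rep_right` we may assume `x (g, u) = 0` (`g ∈ G`, `u ∈ U`), so
`x (g, h u) = x (g, h)` (`right_invariant_of_vanish`).  `G ⧸ U` is finite (`hU.finiteIndex`).
Put `w g := ∑ c : G ⧸ U, x (g, c.out)` (a finite sum of level cochains `IsLev₂.left`, so level).
For every `h`, `∑ c, x (g, h * c.out) = w g`, because `c ↦ h • c` is a permutation of `G ⧸ U` and
`x (g, ·)` is constant on cosets.  Summing the cocycle identity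
`x (g h, j) + x (g, h) = ρ g (x (h, j)) + x (g, h j)` over `j = c.out` gives
`w (g h) + [G:U] x (g, h) = ρ g (w h) + w g`, i.e. `[G:U] • x = d1 w`.
-/

set_option autoImplicit false

namespace Fermat.Agent.S55.L.C0

variable {k : Type*} [CommRing k] {G : Type} [Group G] {L : Lev G}
variable {A : Type*} [AddCommGroup A] [Module k A] {ρ : Representation k G A}

/-- a finite sum of level cochains is a level cochain -/
theorem index_isLev₁_sum {ι : Type*} (s : Finset ι) (F : ι → G → A)
    (hF : ∀ i ∈ s, IsLev₁ L (F i)) : IsLev₁ L (fun g => ∑ i ∈ s, F i g) := by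
  have h : (∑ i ∈ s, F i) ∈ C1 ℤ L A := Submodule.sum_mem _ hF
  have h2 : (∑ i ∈ s, F i) = fun g => ∑ i ∈ s, F i g := by
    ext g; rw [Finset.sum_apply]
  rw [h2] at h
  exact h

theorem index_smul_eq_zero (hρ : IsDiscrete L ρ) {U : Subgroup G} (hU : L.IsOpen U)
    (x : ↥(Z2 L ρ)) (hx : SplitOn L ρ U (x : G × G → A)) : U.index • H2π L ρ x = 0 := by
  classical
  obtain ⟨x', hx', -, hv⟩ := exists_rep_right hρ hU x hx
  have hfin : U.FiniteIndex := hU.finiteIndex
  have : Fintype (G ⧸ U) := Fintype.ofFinite _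
  rw [← hx', ← map_nsmul, H2π_eq_zero_iff, mem_B2_iff]
  have hshift : ∀ g h : G, ∑ c : G ⧸ U, (x' : G × G → A) (g, h * c.out)
      = ∑ c : G ⧸ U, (x' : G × G → A) (g, c.out) := by
    intro g h
    refine Fintype.sum_equiv (MulAction.toPerm h : Equiv.Perm (G ⧸ U)) _ _ fun c => ?_
    have hu : (h * c.out)⁻¹ * (h • c).out ∈ U := by
      rw [← QuotientGroup.eq, QuotientGroup.out_eq']
      change h • ((c.out : G) : G ⧸ U) = h • c
      rw [QuotientGroup.out_eq']
    have := right_invariant_of_vanish x' hv g (h * c.out) hu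
    rw [mul_inv_cancel_left] at this
    exact this.symm
  refine ⟨fun g => ∑ c : G ⧸ U, (x' : G × G → A) (g, c.out),
    index_isLev₁_sum _ _ fun c _ => (Z2.isLev x').left c.out, fun g h => ?_⟩
  have hsum : ∑ c : G ⧸ U, ((x' : G × G → A) (g * h, c.out) + (x' : G × G → A) (g, h))
      = ∑ c : G ⧸ U, (ρ g ((x' : G × G → A) (h, c.out)) + (x' : G × G → A) (g, h * c.out)) :=
    Finset.sum_congr rfl fun c _ => Z2.cocycle x' g h c.out
  rw [Finset.sum_add_distrib, Finset.sum_add_distrib, hshift, Finset.sum_const, Finset.card_univ,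
    ← map_sum, ← Nat.card_eq_fintype_card] at hsum
  change U.index • (x' : G × G → A) (g, h) = _
  rw [Subgroup.index, eq_sub_of_add_eq' hsum]
  abel

end Fermat.Agent.S55.L.C0
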