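import Fermat.Agent.S55.Fc.LES

/-!
# S55 L-C0-11 (Kummer): `H¹(G, A[p]) = A^G / p`, `H²(G, A[p]) = H²(G, A)[p]`

`A` a discrete `G`-module, `p • · : A → A` surjective, `H¹(G, A) = 0`.
Everything follows from the long exact sequence of `0 → A[p] → A → A → 0`
(`SES.ofSurjective`, `exact_H0_δ0`, `exact_δ0_H1`, `exact_δ1_H2`, `exact_H2`).
-/

set_option autoImplicit false

namespace Fermat.Agent.S55.L.C0

variable {k : Type*} [CommRing k] {G : Type} [Group G] (L : Lev G)
variable {A : Type*} [AddCommGroup A] [Module k A] (ρ : Representation k G A) (p : ℕ)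

/-- multiplication by `p` -/
def mulP : A →ₗ[k] A := p • LinearMap.id

@[simp] lemma mulP_apply (a : A) : mulP (k := k) p a = p • a := rfl

lemma mulP_comm (g : G) (a : A) : mulP (k := k) p (ρ g a) = ρ g (mulP (k := k) p a) := by
  simp

/-- the representation on `A[p]` -/
abbrev torsRep : Representation k G (LinearMap.ker (mulP (k := k) (A := A) p)) :=
  subRep ρ (LinearMap.ker (mulP (k := k) (A := A) p)) (by
    intro g w hw; rw [LinearMap.mem_ker] at hw ⊢; rw [mulP_comm, hw, map_zero])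

/-- the Kummer sequence -/
def kummerSES (hdiv : Function.Surjective (mulP (k := k) (A := A) p)) :
    SES (torsRep ρ p) ρ ρ :=
  SES.ofSurjective (mulP (k := k) p) (mulP_comm ρ p) hdiv

variable {L ρ p}

/-- the Kummer map `A^G → H¹(G, A[p])` is onto -/
theorem kummer_δ0_surjective (hρ : IsDiscrete L ρ)
    (hdiv : Function.Surjective (mulP (k := k) (A := A) p)) (hH1 : Subsingleton (H1 L ρ)) :
    Function.Surjective ((kummerSES ρ p hdiv).δ0 L hρ) := by
  intro y
  exact ((kummerSES ρ p hdiv).exact_δ0_H1 L hρ y).1 (Subsingleton.elim _ _)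

/-- its kernel is `p A^G` -/
theorem kummer_δ0_eq_zero_iff (hρ : IsDiscrete L ρ)
    (hdiv : Function.Surjective (mulP (k := k) (A := A) p)) (a : ρ.invariants) :
    (kummerSES ρ p hdiv).δ0 L hρ a = 0 ↔ ∃ b : ρ.invariants, a = p • b := by
  rw [(kummerSES ρ p hdiv).exact_H0_δ0 L hρ a]
  constructor
  · rintro ⟨b, rfl⟩
    exact ⟨b, Subtype.ext rfl⟩
  · rintro ⟨b, rfl⟩
    exact ⟨b, Subtype.ext rfl⟩

/-- `H²(G, A[p]) → H²(G, A)` is injective -/
theorem kummer_H2_injective (hρ : IsDiscrete L ρ)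
    (hdiv : Function.Surjective (mulP (k := k) (A := A) p)) (hH1 : Subsingleton (H1 L ρ)) :
    Function.Injective ((kummerSES ρ p hdiv).iH L).H2map := by
  rw [injective_iff_map_eq_zero]
  intro y hy
  obtain ⟨x, rfl⟩ := ((kummerSES ρ p hdiv).exact_δ1_H2 L hρ y).1 hy
  rw [Subsingleton.elim x 0, map_zero]

/-- the map induced by multiplication by `p` on `H²` is multiplication by `p` -/
lemma Kummer_πH_H2map (hdiv : Function.Surjective (mulP (k := k) (A := A) p)) (x : H2 L ρ) :
    ((kummerSES ρ p hdiv).πH L).H2map x = p • x := by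
  obtain ⟨z, rfl⟩ := Submodule.mkQ_surjective _ x
  rw [PairHom.H2map_mk, ← map_nsmul]
  congr 1

/-- its image is `H²(G, A)[p]` -/
theorem kummer_H2_range (hρ : IsDiscrete L ρ)
    (hdiv : Function.Surjective (mulP (k := k) (A := A) p)) (x : H2 L ρ) :
    (∃ y, ((kummerSES ρ p hdiv).iH L).H2map y = x) ↔ p • x = 0 := by
  rw [← Kummer_πH_H2map hdiv x, (kummerSES ρ p hdiv).exact_H2 L hρ x]
  rfl

end Fermat.Agent.S55.L.C0
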