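import Fermat.Agent.S55.L.C0.Defs

/-!
# S55 L-C0-1 (Bridge): `SplitOn` / `H1VanishOn` versus restriction maps of CORE

`f : H →* G` injective, `LH` induced from `L`, `f.range` open.

PROOFS.  A level cochain `y : H → A` extends by zero to `ỹ : G → A`
(`ỹ g = y h` if `g = f h`, `0` if `g ∉ f.range`; use `Function.extend f y 0` or
`if h : g ∈ f.range then y h.choose else 0`).  `ỹ` is a level cochain: `y` is right invariant under
`V ∈ LH.sets`, `U.comap f ≤ V` for some `U ∈ L.sets` (`hind.2`), `W ≤ f.range` for some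
`W ∈ L.sets`; take `W' ≤ U ⊓ W` (`L.directed`).  Conversely `y ∘ f` is a level cochain
(`IsLev₁.precomp hind.1`).  Then unfold `PairHom.H2map_mk`, `H2π_eq_zero_iff`, `mem_B2_iff`,
`mem_Z1_iff`, `mem_B1_iff`.
-/

set_option autoImplicit false

namespace Fermat.Agent.S55.L.C0

variable {k : Type*} [CommRing k] {G H : Type} [Group G] [Group H] {L : Lev G} {LH : Lev H}
variable {A : Type*} [AddCommGroup A] [Module k A] (ρ : Representation k G A)

/-- extension by zero of a level cochain -/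
theorem exists_extend {X : Type*} [Zero X] (f : H →* G) (hf : Function.Injective f)
    (hind : Lev.Induced LH L f) (hopen : L.IsOpen f.range) (y : H → X) (hy : IsLev₁ LH y) :
    ∃ y' : G → X, IsLev₁ L y' ∧ ∀ h, y' (f h) = y h := by
  obtain ⟨V, hV, hyV⟩ := hy
  obtain ⟨U, hU, hUV⟩ := hind.2 V hV
  obtain ⟨W, hW, hWr⟩ := hopen
  obtain ⟨W', hW', hW'le⟩ := L.directed U hU W hW
  refine ⟨Function.extend f y 0, ⟨W', hW', fun g w hw => ?_⟩, fun h => hf.extend_apply y 0 h⟩
  obtain ⟨h', rfl⟩ := hWr (hW'le hw).2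
  by_cases hg : ∃ h, f h = g
  · obtain ⟨h, rfl⟩ := hg
    rw [← map_mul, hf.extend_apply, hf.extend_apply]
    exact hyV h h' (hUV (hW'le hw).1)
  · have hg' : ¬ ∃ h, f h = g * f h' := by
      rintro ⟨h, hh⟩
      exact hg ⟨h * h'⁻¹, by rw [map_mul, hh, map_inv, mul_inv_cancel_right]⟩
    rw [Function.extend_apply' _ _ _ hg, Function.extend_apply' _ _ _ hg']
    rfl

theorem res_H2π_eq_zero_iff (f : H →* G) (hf : Function.Injective f)
    (hind : Lev.Induced LH L f) (hopen : L.IsOpen f.range) (x : ↥(Z2 L ρ)) :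
    (PairHom.res ρ f hind.1).H2map (H2π L ρ x) = 0 ↔ SplitOn L ρ f.range (x : G × G → A) := by
  rw [PairHom.H2map_mk, H2π_eq_zero_iff, mem_B2_iff]
  constructor
  · rintro ⟨y, hy, hxy⟩
    obtain ⟨y', hy', hyy'⟩ := exists_extend f hf hind hopen y hy
    refine ⟨y', hy', ?_⟩
    rintro _ ⟨h, rfl⟩ _ ⟨h', rfl⟩
    rw [← map_mul, hyy', hyy', hyy']
    exact hxy h h'
  · rintro ⟨y, hy, hxy⟩
    refine ⟨y ∘ f, hy.precomp hind.1, fun h h' => ?_⟩
    have := hxy (f h) ⟨h, rfl⟩ (f h') ⟨h', rfl⟩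
    rw [← map_mul] at this
    exact this

theorem h1VanishOn_range_iff (f : H →* G) (hf : Function.Injective f)
    (hind : Lev.Induced LH L f) (hopen : L.IsOpen f.range) :
    H1VanishOn L ρ f.range ↔ ∀ z : H → A, z ∈ Z1 LH (ρ.comp f) → z ∈ B1 (ρ.comp f) := by
  constructor
  · intro hvan z hz
    rw [mem_Z1_iff] at hz
    obtain ⟨z', hz', hzz'⟩ := exists_extend f hf hind hopen z hz.1
    obtain ⟨m, hm⟩ := hvan z' hz' (by
      rintro _ ⟨h, rfl⟩ _ ⟨h', rfl⟩
      rw [← map_mul, hzz', hzz', hzz']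
      exact hz.2 h h')
    rw [mem_B1_iff]
    refine ⟨m, fun h => ?_⟩
    rw [← hzz']
    exact hm (f h) ⟨h, rfl⟩
  · intro hall z hz hcoc
    have hmem : z ∘ f ∈ Z1 LH (ρ.comp f) := by
      rw [mem_Z1_iff]
      refine ⟨hz.precomp hind.1, fun h h' => ?_⟩
      have := hcoc (f h) ⟨h, rfl⟩ (f h') ⟨h', rfl⟩
      rw [← map_mul] at this
      exact this
    obtain ⟨m, hm⟩ := (mem_B1_iff _ _).1 (hall _ hmem)
    refine ⟨m, ?_⟩
    rintro _ ⟨h, rfl⟩
    exact hm h

/-- special case of a subgroup -/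
theorem resSub_eq_zero_iff {U : Subgroup G} (hU : L.IsOpen U) (x : ↥(Z2 L ρ)) :
    (PairHom.res (LH := L.sub U) ρ U.subtype (L.cont_comap U.subtype)).H2map (H2π L ρ x) = 0 ↔
      SplitOn L ρ U (x : G × G → A) := by
  have := res_H2π_eq_zero_iff ρ U.subtype Subtype.val_injective (L.induced_comap U.subtype)
    (by rwa [Subgroup.range_subtype]) x
  rwa [Subgroup.range_subtype] at this

theorem h1VanishOn_iff {U : Subgroup G} (hU : L.IsOpen U) :
    H1VanishOn L ρ U ↔ Subsingleton (H1 (L.sub U) (ρ.comp U.subtype)) := by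
  have := h1VanishOn_range_iff ρ U.subtype Subtype.val_injective (L.induced_comap U.subtype)
    (by rwa [Subgroup.range_subtype])
  rw [Subgroup.range_subtype] at this
  rw [this, Submodule.Quotient.subsingleton_iff, eq_top_iff]
  constructor
  · intro h z _
    exact h z.1 z.2
  · intro h z hz
    exact h (x := ⟨z, hz⟩) trivial

/-- transitivity: `U' ≤ U ≤ G`, seen inside `↥U`. -/
theorem splitOn_subgroupOf_iff {U U' : Subgroup G} (hU : L.IsOpen U) (h : U' ≤ U)
    (x : G × G → A) :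
    SplitOn (L.sub U) (ρ.comp U.subtype) (U'.subgroupOf U) (x ∘ Prod.map U.subtype U.subtype) ↔
      SplitOn L ρ U' x := by
  constructor
  · rintro ⟨y, hy, hxy⟩
    obtain ⟨y', hy', hyy'⟩ := exists_extend U.subtype Subtype.val_injective
      (L.induced_comap U.subtype) (by rwa [Subgroup.range_subtype]) y hy
    refine ⟨y', hy', fun u hu u' hu' => ?_⟩
    have := hxy ⟨u, h hu⟩ (Subgroup.mem_subgroupOf.mpr hu) ⟨u', h hu'⟩
      (Subgroup.mem_subgroupOf.mpr hu')
    rw [← hyy', ← hyy', ← hyy'] at this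
    exact this
  · rintro ⟨y, hy, hxy⟩
    refine ⟨y ∘ U.subtype, hy.precomp (L.cont_comap U.subtype), fun u hu u' hu' => ?_⟩
    exact hxy u (Subgroup.mem_subgroupOf.mp hu) u' (Subgroup.mem_subgroupOf.mp hu')

theorem h1VanishOn_subgroupOf_iff {U U' : Subgroup G} (hU : L.IsOpen U) (h : U' ≤ U) :
    H1VanishOn (L.sub U) (ρ.comp U.subtype) (U'.subgroupOf U) ↔ H1VanishOn L ρ U' := by
  constructor
  · intro hvan z hz hcoc
    obtain ⟨m, hm⟩ := hvan (z ∘ U.subtype) (hz.precomp (L.cont_comap U.subtype))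
      (fun v hv w hw => hcoc v (Subgroup.mem_subgroupOf.mp hv) w (Subgroup.mem_subgroupOf.mp hw))
    exact ⟨m, fun v hv => hm ⟨v, h hv⟩ (Subgroup.mem_subgroupOf.mpr hv)⟩
  · intro hvan z hz hcoc
    obtain ⟨z', hz', hzz'⟩ := exists_extend U.subtype Subtype.val_injective
      (L.induced_comap U.subtype) (by rwa [Subgroup.range_subtype]) z hz
    obtain ⟨m, hm⟩ := hvan z' hz' (fun v hv w hw => by
      have := hcoc ⟨v, h hv⟩ (Subgroup.mem_subgroupOf.mpr hv) ⟨w, h hw⟩
        (Subgroup.mem_subgroupOf.mpr hw)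
      rw [← hzz', ← hzz', ← hzz'] at this
      exact this)
    refine ⟨m, fun v hv => ?_⟩
    rw [← hzz']
    exact hm v (Subgroup.mem_subgroupOf.mp hv)

end Fermat.Agent.S55.L.C0
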