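import Fermat.Agent.S55.L.C0.Defs

/-!
# S55 L-C0-5 (CycDefs): the cyclic 2-cocycle `cyc χ a`

`χ : G →* Multiplicative (ZMod n)` a character with open kernel, `a ∈ A^G`.
`lval χ g ∈ [0, n)` is the canonical lift of `χ g`, and
`cyc χ a (g, h) = ((lval χ g + lval χ h) / n) • a`  (`= a` if `lval g + lval h ≥ n`, `0` otherwise).
This is `a ∪ δχ`.  It is compatible with restriction ON THE NOSE: `cyc (χ.comp f) a = cyc χ a ∘ f`.
`χ` is NOT assumed to be surjective.
-/

set_option autoImplicit false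

namespace Fermat.Agent.S55.L.C0

variable {k : Type*} [CommRing k] {G : Type} [Group G] (L : Lev G)
variable {A : Type*} [AddCommGroup A] [Module k A] (ρ : Representation k G A)
variable {n : ℕ} [NeZero n] (χ : G →* Multiplicative (ZMod n))

/-- the lift of `χ g` to `[0, n)` -/
def lval (g : G) : ℕ := (Multiplicative.toAdd (χ g)).val

/-- the cyclic cocycle -/
def cyc (a : A) : G × G → A := fun p => ((lval χ p.1 + lval χ p.2) / n) • a

@[simp] lemma cyc_apply (a : A) (g h : G) : cyc χ a (g, h) = ((lval χ g + lval χ h) / n) • a := rfl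

lemma lval_lt (g : G) : lval χ g < n := ZMod.val_lt _

lemma lval_mul (g h : G) : lval χ (g * h) = (lval χ g + lval χ h) % n := by
  unfold lval
  rw [map_mul, toAdd_mul, ZMod.val_add]

lemma lval_eq_zero_iff (g : G) : lval χ g = 0 ↔ g ∈ χ.ker := by
  unfold lval
  rw [ZMod.val_eq_zero, MonoidHom.mem_ker, toAdd_eq_zero]

lemma lval_mul_of_mem_ker (g : G) {v : G} (hv : v ∈ χ.ker) : lval χ (g * v) = lval χ g := by
  rw [lval_mul, (lval_eq_zero_iff χ v).2 hv, add_zero, Nat.mod_eq_of_lt (lval_lt χ g)]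

lemma lval_eq_iff (g h : G) : lval χ g = lval χ h ↔ χ g = χ h := by
  unfold lval
  rw [(ZMod.val_injective n).eq_iff, Multiplicative.toAdd.injective.eq_iff]

/-- `(x % n + l) / n + x / n = (x + l) / n` -/
lemma carry_assoc (i j l : ℕ) :
    ((i + j) % n + l) / n + (i + j) / n = (j + l) / n + (i + (j + l) % n) / n := by
  have hn : 0 < n := Nat.pos_of_ne_zero (NeZero.ne n)
  have key : ∀ x y : ℕ, (x % n + y) / n + x / n = (x + y) / n := by
    intro x y
    conv_rhs => rw [← Nat.mod_add_div x n, add_right_comm, Nat.add_mul_div_left _ _ hn]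
  rw [key, add_comm ((j + l) / n), add_comm i ((j + l) % n), key, add_assoc, add_comm i (j + l)]

lemma cyc_isLev₂ (hχ : L.IsOpen χ.ker) (a : A) : IsLev₂ L (cyc χ a) := by
  obtain ⟨U, hU, hUk⟩ := hχ
  refine ⟨U, hU, fun g h u hu v hv => ?_⟩
  rw [cyc_apply, cyc_apply, lval_mul_of_mem_ker χ g (hUk hu), lval_mul_of_mem_ker χ h (hUk hv)]

lemma cyc_mem_Z2 (hχ : L.IsOpen χ.ker) {a : A} (ha : ∀ g, ρ g a = a) : cyc χ a ∈ Z2 L ρ := by
  rw [mem_Z2_iff]
  refine ⟨cyc_isLev₂ L χ hχ a, fun g h j => ?_⟩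
  simp only [cyc_apply, map_nsmul, ha, lval_mul, ← add_smul]
  rw [carry_assoc]

/-- the class of `cyc χ a`, linear in `a ∈ A^G` -/
noncomputable def cycH2 (hχ : L.IsOpen χ.ker) : ρ.invariants →ₗ[k] H2 L ρ where
  toFun a := H2π L ρ ⟨cyc χ (a : A), cyc_mem_Z2 L ρ χ hχ a.2⟩
  map_add' a b := by
    rw [← map_add]
    congr 1
    ext ⟨g, h⟩
    simp [smul_add]
  map_smul' c a := by
    rw [RingHom.id_apply, ← map_smul]
    congr 1
    ext ⟨g, h⟩
    simp [smul_comm c]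

lemma cycH2_apply (hχ : L.IsOpen χ.ker) (a : ρ.invariants) :
    cycH2 L ρ χ hχ a = H2π L ρ ⟨cyc χ (a : A), cyc_mem_Z2 L ρ χ hχ a.2⟩ := rfl

/-- `cyc χ a` vanishes on `ker χ × G` and on `G × ker χ` -/
lemma cyc_of_mem_ker_left (a : A) {v : G} (hv : v ∈ χ.ker) (g : G) : cyc χ a (v, g) = 0 := by
  rw [cyc_apply, (lval_eq_zero_iff χ v).2 hv, zero_add, Nat.div_eq_of_lt (lval_lt χ g), zero_smul]

lemma cyc_of_mem_ker_right (a : A) {v : G} (hv : v ∈ χ.ker) (g : G) : cyc χ a (g, v) = 0 := by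
  rw [cyc_apply, (lval_eq_zero_iff χ v).2 hv, add_zero, Nat.div_eq_of_lt (lval_lt χ g), zero_smul]

lemma splitOn_ker_cyc (a : A) : SplitOn L ρ χ.ker (cyc χ a) := by
  refine ⟨fun _ => 0, isLev₁_const L _, fun u hu u' _ => ?_⟩
  rw [cyc_of_mem_ker_left χ a hu]
  simp

/-- compatibility with restriction (definitional) -/
lemma cyc_comp {H : Type} [Group H] (f : H →* G) (a : A) :
    cyc (χ.comp f) a = cyc χ a ∘ Prod.map f f := rfl

lemma res_cycH2 {H : Type} [Group H] {LH : Lev H} (f : H →* G) (hf : Lev.Cont LH L f)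
    (hχ : L.IsOpen χ.ker) (a : ρ.invariants) :
    (PairHom.res ρ f hf).H2map (cycH2 L ρ χ hχ a) =
      cycH2 LH (ρ.comp f) (χ.comp f) (hχ.comap hf) ((PairHom.res ρ f hf).H0map a) := by
  rfl

end Fermat.Agent.S55.L.C0
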