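import Fermat.Agent.S55.L.C0.Defs

/-!
# S55 L-C0-2 (Right): first two normalisations

`U ≤ G` open, `x` a level 2-cocycle which splits on `U`.  Then `x` is cohomologous to a normalised
cocycle `x'` with `x' (g, u) = 0` for all `g ∈ G`, `u ∈ U`.

PROOF.  (0) By `exists_normalised` and `splitOn_congr` we may assume `x (1, g) = 0 = x (g, 1)`.
(1) `x = d1 y` on `U × U` with `y` level; note `y 1 = 0` follows from `x (1,1) = 0`
(`x (1,1) = ρ 1 (y 1) - y 1 + y 1 = y 1`).  Put `y₀ g = y g` if `g ∈ U`, `0` otherwise (a level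
cochain: `y` is right `W`-invariant, shrink `W` into `U`), `x₁ = x - d1 y₀`: still normalised
(`y₀ 1 = 0`), and `x₁ = 0` on `U × U`.
(2) `t g := (g : G ⧸ U).out` (with the convention corrected so that `t u = 1` for `u ∈ U`: take
`t g = if g ∈ U then 1 else (g : G ⧸ U).out`), `r g := (t g)⁻¹ * g ∈ U`;
`t (g u) = t g`, `r (g u) = r g * u`.  `z g := x₁ (t g, r g)` is a level cochain
(`x₁` right invariant under a level `W ≤ U`), `z u = x₁ (1, u) = 0` for `u ∈ U`.
`x₂ := x₁ + d1 z`.  For `s = t g`, `u ∈ U` : `(d1 z) (s, u) = ρ s (z u) - z (s u) + z s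
= 0 - x₁ (s, u) + x₁ (s, 1) = - x₁ (s, u)` (as `t (s u) = t s = s`, `r (s u) = u`), so
`x₂ (s, u) = 0`.  `x₂ = x₁ = 0` on `U × U`.  The cocycle identity for `(s, u₀, u)` gives
`x₂ (s u₀, u) = ρ s (x₂ (u₀, u)) + x₂ (s, u₀ u) - x₂ (s, u₀) = 0`.  Finally
`x₂ (1, g) = 0`: any cocycle satisfies `x (1, g) = x (1, 1)` (identity for `(1,1,g)`), and
`x₂ (1,1) = 0`.
-/

set_option autoImplicit false

namespace Fermat.Agent.S55.L.C0

variable {k : Type*} [CommRing k] {G : Type} [Group G] {L : Lev G}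
variable {A : Type*} [AddCommGroup A] [Module k A] {ρ : Representation k G A}

/-- step (1) -/
theorem exists_rep_UU (hρ : IsDiscrete L ρ) {U : Subgroup G} (hU : L.IsOpen U) (x : ↥(Z2 L ρ))
    (hx : SplitOn L ρ U (x : G × G → A)) :
    ∃ x' : ↥(Z2 L ρ), H2π L ρ x' = H2π L ρ x ∧ (∀ g, (x' : G × G → A) (1, g) = 0) ∧
      (∀ g, (x' : G × G → A) (g, 1) = 0) ∧
      ∀ u ∈ U, ∀ u' ∈ U, (x' : G × G → A) (u, u') = 0 := by
  classical
  obtain ⟨x₀, hx₀, h1, h2⟩ := exists_normalised hρ (H2π L ρ x)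
  obtain ⟨y, hyl, hy⟩ := (splitOn_congr U hx₀).2 hx
  have hy1 : y 1 = 0 := by
    have := hy 1 U.one_mem 1 U.one_mem
    rw [h1 1] at this
    simpa using this.symm
  let y₀ : G → A := fun g => if g ∈ U then y g else 0
  have hy₀U : ∀ u ∈ U, y₀ u = y u := fun u hu => if_pos hu
  have hy₀l : IsLev₁ L y₀ := by
    obtain ⟨W, hW, hWy⟩ := hyl
    obtain ⟨W', hW', hW'U⟩ := hU
    obtain ⟨W'', hW'', hle⟩ := L.directed W hW W' hW'
    refine ⟨W'', hW'', fun g w hw => ?_⟩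
    have hwU : w ∈ U := hW'U (hle hw).2
    show (if g * w ∈ U then y (g * w) else 0) = if g ∈ U then y g else 0
    rw [hWy g w (hle hw).1]
    simp only [Subgroup.mul_mem_cancel_right U hwU]
  have hb : d1 ρ y₀ ∈ B2 L ρ := ⟨y₀, hy₀l, rfl⟩
  have hy₀1 : y₀ 1 = 0 := by rw [hy₀U 1 U.one_mem, hy1]
  refine ⟨x₀ - ⟨_, B2_le_Z2 hρ hb⟩, ?_, fun g => ?_, fun g => ?_, fun u hu u' hu' => ?_⟩
  · rw [map_sub, ← hx₀, sub_eq_self, H2π_eq_zero_iff]
    exact hb
  · simp [h1, hy₀1]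
  · simp [h2, hy₀1]
  · simp only [Submodule.coe_sub, Pi.sub_apply, d1_apply, hy₀U u hu, hy₀U u' hu',
      hy₀U _ (U.mul_mem hu hu'), hy u hu u' hu', sub_self]

/-- step (2) -/
theorem exists_rep_right (hρ : IsDiscrete L ρ) {U : Subgroup G} (hU : L.IsOpen U) (x : ↥(Z2 L ρ))
    (hx : SplitOn L ρ U (x : G × G → A)) :
    ∃ x' : ↥(Z2 L ρ), H2π L ρ x' = H2π L ρ x ∧ (∀ g, (x' : G × G → A) (1, g) = 0) ∧
      ∀ g, ∀ u ∈ U, (x' : G × G → A) (g, u) = 0 := by
  classical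
  obtain ⟨x₁, hx₁, h1, h2, hUU⟩ := exists_rep_UU hρ hU x hx
  let t : G → G := fun g => if g ∈ U then 1 else (g : G ⧸ U).out
  let r : G → G := fun g => (t g)⁻¹ * g
  have htU : ∀ u ∈ U, t u = 1 := fun u hu => if_pos hu
  have htN : ∀ g, g ∉ U → t g = (g : G ⧸ U).out := fun g hg => if_neg hg
  have hrU : ∀ g, r g ∈ U := by
    intro g
    by_cases hg : g ∈ U
    · show (t g)⁻¹ * g ∈ U
      rw [htU g hg]; simpa using hg
    · show (t g)⁻¹ * g ∈ U
      rw [htN g hg]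
      exact QuotientGroup.eq.1 (QuotientGroup.out_eq' _)
  have htr : ∀ g, t g * r g = g := fun g => by
    show t g * ((t g)⁻¹ * g) = g
    group
  have htmul : ∀ g, ∀ u ∈ U, t (g * u) = t g := by
    intro g u hu
    show (if g * u ∈ U then 1 else ((g * u : G) : G ⧸ U).out) = if g ∈ U then 1 else (g : G ⧸ U).out
    simp only [Subgroup.mul_mem_cancel_right U hu, QuotientGroup.mk_mul_of_mem g hu]
  have hrmul : ∀ g, ∀ u ∈ U, r (g * u) = r g * u := by
    intro g u hu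
    show (t (g * u))⁻¹ * (g * u) = (t g)⁻¹ * g * u
    rw [htmul g u hu, mul_assoc]
  have htt : ∀ g, t (t g) = t g := by
    intro g
    have := htmul (t g) (r g) (hrU g)
    rw [htr g] at this
    exact this.symm
  have hrt : ∀ g, r (t g) = 1 := by
    intro g
    show (t (t g))⁻¹ * t g = 1
    rw [htt g]; group
  let z : G → A := fun g => (x₁ : G × G → A) (t g, r g)
  have hzl : IsLev₁ L z := by
    obtain ⟨W, hW, hWx⟩ := Z2.isLev x₁
    obtain ⟨W', hW', hW'U⟩ := hU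
    obtain ⟨W'', hW'', hle⟩ := L.directed W hW W' hW'
    refine ⟨W'', hW'', fun g w hw => ?_⟩
    have hwU : w ∈ U := hW'U (hle hw).2
    show (x₁ : G × G → A) (t (g * w), r (g * w)) = (x₁ : G × G → A) (t g, r g)
    rw [htmul g w hwU, hrmul g w hwU]
    have := hWx (t g) (r g) 1 W.one_mem w (hle hw).1
    rwa [mul_one] at this
  have hzU : ∀ u ∈ U, z u = 0 := by
    intro u hu
    show (x₁ : G × G → A) (t u, r u) = 0
    rw [htU u hu]
    exact h1 _
  have hb : d1 ρ z ∈ B2 L ρ := ⟨z, hzl, rfl⟩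
  let x₂ : ↥(Z2 L ρ) := x₁ + ⟨_, B2_le_Z2 hρ hb⟩
  have hx₂ : ∀ g h, (x₂ : G × G → A) (g, h)
      = (x₁ : G × G → A) (g, h) + (ρ g (z h) - z (g * h) + z g) := fun g h => rfl
  -- Claim A
  have hA : ∀ g, ∀ u ∈ U, (x₂ : G × G → A) (t g, u) = 0 := by
    intro g u hu
    rw [hx₂, hzU u hu, map_zero]
    have e1 : z (t g * u) = (x₁ : G × G → A) (t g, u) := by
      show (x₁ : G × G → A) (t (t g * u), r (t g * u)) = _
      rw [htmul _ u hu, hrmul _ u hu, htt, hrt, one_mul]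
    have e2 : z (t g) = 0 := by
      show (x₁ : G × G → A) (t (t g), r (t g)) = 0
      rw [hrt]
      exact h2 _
    rw [e1, e2]
    abel
  -- Claim B
  have hB : ∀ u ∈ U, ∀ u' ∈ U, (x₂ : G × G → A) (u, u') = 0 := by
    intro u hu u' hu'
    rw [hx₂, hUU u hu u' hu', hzU u hu, hzU u' hu', hzU _ (U.mul_mem hu hu'), map_zero]
    abel
  refine ⟨x₂, ?_, fun g => ?_, fun g u hu => ?_⟩
  · show H2π L ρ (x₁ + _) = _
    rw [map_add, hx₁, add_eq_left, H2π_eq_zero_iff]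
    exact hb
  · have := Z2.cocycle x₂ 1 1 g
    simp only [mul_one, one_mul, map_one, Module.End.one_apply, add_right_inj] at this
    rw [← this]
    exact hB 1 U.one_mem 1 U.one_mem
  · have := Z2.cocycle x₂ (t g) (r g) u
    rw [htr g, hA g _ (hrU g), hB _ (hrU g) u hu, hA g _ (U.mul_mem (hrU g) hu), map_zero,
      add_zero, add_zero] at this
    exact this

/-- a cocycle vanishing on `G × U` is right `U`-invariant in the second variable
(cocycle identity for `(g, h, u)`). -/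
theorem right_invariant_of_vanish {U : Subgroup G} (x : ↥(Z2 L ρ))
    (hx : ∀ g, ∀ u ∈ U, (x : G × G → A) (g, u) = 0) (g h : G) {u : G} (hu : u ∈ U) :
    (x : G × G → A) (g, h * u) = (x : G × G → A) (g, h) := by
  have := Z2.cocycle x g h u
  rw [hx _ u hu, hx h u hu, map_zero, zero_add, zero_add] at this
  exact this.symm

end Fermat.Agent.S55.L.C0
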